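/-
PROGRAMME II (S40), block A3a D-HECKE2 = K2 + K5 (owner helper24), DEFINITIONS (sorry-free):

* `alphaC k N ℓ`, `betaC k N ℓ : F̃_N →ₐ[k] F̃_{Nℓ}` : the two degeneracy maps of the function fields
  `modularFunctionFieldFullC k N ⊆ k((q))` over ANY field `k` (inclusion, `q ↦ q^ℓ`) — the
  characteristic-`p` twins of the Prelude's `heckeAlphaBar`, `heckeBetaBar`;
* `HeckeInputsC k N ℓ`, `heckeOperatorC k N ℓ : JZeroC k N →+ JZeroC k N` : the Hecke operator
  `T̄_ℓ = α_* β^*` on `Pic⁰(F̃_N)` (same recipe as the Prelude's `heckeOperatorAlong`); THIS is the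
  `T̄_ℓ` of K8 and of the consumer (S1e);
* `AbPart S m x v c` : `c ∈ Pic⁰(Ft v)` is the ABELIAN PART on the component `v` of the class `x`
  (`= [div(g)/m]` for a residue `g` on `v` of `f`, `m D = div f`, when `m ∣ div g`);
* `IsSlope S m x e a` : `a ∈ ℤ/m` is the SLOPE of `x` at the crossing `e` (`= ord_{s₁ e}` of a
  residue of `f` on the source component, modulo `m`).
-/
import Mathlib
import Fermat.Agent.BR2.Filtration
import Fermat.Prelude.Def_ModularCurve_X0ModL
import Fermat.Prelude.Def_AlgebraicCurve_Correspondence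

set_option autoImplicit false
set_option linter.unusedSectionVars false

noncomputable section

namespace Fermat.Agent.FF4.Hecke2

open AlgebraicCurve ModularCurve Fermat.Agent.BR.SS Fermat.Agent.BR2

/-! ### the degeneracy maps in any characteristic -/

section Degeneracy

variable (k : Type*) [Field k] (N ℓ : ℕ) [NeZero N] [NeZero ℓ]

/-- `α` : the inclusion `F̃_N ⊆ F̃_{Nℓ}` -/
def alphaC : modularFunctionFieldFullC k N →ₐ[k] modularFunctionFieldFullC k (N * ℓ) :=
  IntermediateField.inclusion (full_degeneracyC_le k (dvd_mul_right N ℓ))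

@[simp] theorem coe_alphaC (x : modularFunctionFieldFullC k N) :
    ((alphaC k N ℓ x : modularFunctionFieldFullC k (N * ℓ)) : LaurentSeries k) = x :=
  IntermediateField.coe_inclusion _ x

/-- `β` : `q ↦ q ^ ℓ` -/
def betaC : modularFunctionFieldFullC k N →ₐ[k] modularFunctionFieldFullC k (N * ℓ) :=
  ((qExpandAlgHomC k ℓ).comp (modularFunctionFieldFullC k N).val).codRestrict
    (modularFunctionFieldFullC k (N * ℓ)).toSubalgebra
    (fun x => full_degeneracyC_map_le k N ℓ ⟨x, x.2, rfl⟩)

@[simp] theorem coe_betaC (x : modularFunctionFieldFullC k N) :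
    ((betaC k N ℓ x : modularFunctionFieldFullC k (N * ℓ)) : LaurentSeries k) =
      qExpand k ℓ (x : LaurentSeries k) := rfl

/-- the inputs of the Hecke correspondence (as in the Prelude's `HeckeInputsAlong`) -/
def HeckeInputsC : Prop :=
  ∃ (_ : (alphaC k N ℓ).toRingHom.IsIntegral) (hβ : (betaC k N ℓ).toRingHom.IsIntegral)
    (_ : HasPrincipalDivisors k (modularFunctionFieldFullC k (N * ℓ)))
    (hfin : FiniteAlong k (alphaC k N ℓ)),
    FundamentalIdentityAlong k (betaC k N ℓ) hβ ∧ NormFormulaAlong k (alphaC k N ℓ) hfin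

open Classical in
/-- **`T̄_ℓ` on `Pic⁰(F̃_N)`**, any characteristic: `α_* ∘ β^*` -/
def heckeOperatorC : JZeroC k N →+ JZeroC k N :=
  if h : HeckeInputsC k N ℓ then
    haveI := h.snd.snd.fst
    Pic0.correspondence (betaC k N ℓ) (alphaC k N ℓ) h.snd.fst h.fst h.snd.snd.snd.snd.1
      h.snd.snd.snd.fst h.snd.snd.snd.snd.2
  else 0

end Degeneracy

/-! ### abelian parts and slopes of torsion classes on a semistable setup -/

section Generic

variable {K F k : Type*} [Field K] [Field F] [Algebra K F] [Field k]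
  {A : ValuationSubring K} {π : A →+* k} {ι : Type*} {Ft : ι → Type*}
  [∀ v, Field (Ft v)] [∀ v, Algebra k (Ft v)] {ν : Type*}
  (S : SemistableSetup (F := F) A π ι Ft ν)

/-- `c` is the abelian part of `x` on the component `v` -/
def AbPart (m : ℕ) (x : Pic0 K F) (v : ι) (c : Pic0 k (Ft v)) : Prop :=
  ∃ (D : Divisor.degZero (K := K) (F := F)) (f : F), Filt.IsRep m x D f ∧
    ∃ g : Ft v, Filt.IsResidue S v f g ∧
      ∃ E : Divisor.degZero (K := k) (F := Ft v),
        (∀ Q : Place k (Ft v), Q.ord g = (m : ℤ) * (E : Divisor k (Ft v)) Q) ∧ Pic0.mk E = c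

/-- `a` is the slope of `x` at the crossing `e` (seen from the source component) -/
def IsSlope (m : ℕ) (x : Pic0 K F) (e : ν) (a : ZMod m) : Prop :=
  ∃ (D : Divisor.degZero (K := K) (F := F)) (f : F), Filt.IsRep m x D f ∧
    ∃ g : Ft (S.src e), Filt.IsResidue S (S.src e) f g ∧ (((S.s₁ e).ord g : ℤ) : ZMod m) = a

/-- the slope at `e` seen from the target component -/
def IsSlope' (m : ℕ) (x : Pic0 K F) (e : ν) (a : ZMod m) : Prop :=
  ∃ (D : Divisor.degZero (K := K) (F := F)) (f : F), Filt.IsRep m x D f ∧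
    ∃ g : Ft (S.tgt e), Filt.IsResidue S (S.tgt e) f g ∧ (((S.s₂ e).ord g : ℤ) : ZMod m) = a

end Generic

end Fermat.Agent.FF4.Hecke2
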