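import Mathlib
import Fermat.Agent.FF4.Hecke2.Defs
import Fermat.Agent.BR.ResGen
import Fermat.Agent.BR.S0.RedModularInst
import Fermat.Agent.Hecke.AtkinLehner

/-!
# PROGRAMME II, block D-HECKE2 (owner helper24), leaf L1 (helper14): TWO-LEVEL COMPATIBILITY

`M` prime to the prime `q`, `ℓ` an auxiliary number, `B ⊂ ℚ̄` a valuation ring over `q`, `k` its residue
field.  The two components `C v = compW B hB hqM v` of the model of `X₀(Mq)` at `q` (valuation rings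
`O1 = ` Gauss valuation of the `q`-expansion, `O2 = O1.comap W_q`; residue fields `F̃_M ⊂ k((q))`) and
the two components `C' v = compW B hB hqMℓ v` of the model of `X₀(Mℓq)`.

* `castF h : Fb N ≃ₐ[Kb] Fb N'` for `h : N = N'` (the identity on the underlying Laurent series);
* `phiA, phiB : Fb (M * q) →ₐ[Kb] Fb (M * ℓ * q)` : the two degeneracy maps `heckeAlphaBar`,
  `heckeBetaBar Kb (M * q) ℓ` followed by the level cast `M * q * ℓ = M * ℓ * q`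
  (`coe_phiA : ↑(phiA x) = ↑x`, `coe_phiB : ↑(phiB x) = qExpand Kb ℓ ↑x`);
* `Wq_phiA`, `Wq_phiB` : the Atkin–Lehner involutions at `q` of the two levels commute with
  `phiA`, `phiB`;
* `phiA_mem_iff`, `res_phiA`, `phiB_mem_iff`, `res_phiB` : for `v : Fin 2`,
  `phiA x ∈ (C' v).O ↔ x ∈ (C v).O` and `(C' v).res (phiA x) = alphaC k M ℓ ((C v).res x)`; the same
  for `phiB` with `betaC k M ℓ`.
-/

set_option autoImplicit false
set_option linter.unusedSectionVars false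
set_option linter.style.haveILetI false
set_option synthInstance.maxHeartbeats 400000

noncomputable section

namespace Fermat.Agent.FF4.Hecke2.TwoLevel

open ModularCurve AlgebraicCurve IsLocalRing Fermat.Agent.X0 Fermat.Agent.Val
  Fermat.Agent.BR.TwoVal Fermat.Agent.Hecke.AL Fermat.Agent.BR.S0.RedModular
  Fermat.Agent.BR.ConstRedTwo Fermat.Agent.FF4.Hecke2

/-! ### the level cast -/

/-- the level cast of the function fields (the identity on the underlying Laurent series) -/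
def castF {N N' : ℕ} (h : N = N') : Fb N ≃ₐ[Kb] Fb N' := by
  subst h
  exact AlgEquiv.refl

@[simp] theorem coe_castF {N N' : ℕ} (h : N = N') (x : Fb N) :
    ((castF h x : Fb N') : LaurentSeries Kb) = (x : LaurentSeries Kb) := by
  subst h
  rfl

theorem castF_jBarD {N N' : ℕ} (h : N = N') (d : ℕ) [NeZero d] (hd : d ∣ N) (hd' : d ∣ N') :
    castF h (jBarD N d hd) = jBarD N' d hd' := by
  apply Subtype.ext
  rw [coe_castF, coe_jBarD, coe_jBarD]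

/-! ### abstract: forward membership and residue compatibility give the equivalence -/

section Abstract

variable {K F F' k Ft Ft' : Type*} [Field K] [Field F] [Algebra K F] [Field F'] [Algebra K F']
  [Field k] [Field Ft] [Algebra k Ft] [Field Ft'] [Algebra k Ft']
  {A : ValuationSubring K} {π : A →+* k}

/-- if `φ` maps `O` into `O'` compatibly with the residue maps, then `O = φ⁻¹ O'` -/
theorem mem_iff_of_res_compat (S : ConstRed (F := F) (Ft := Ft) A π)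
    (S' : ConstRed (F := F') (Ft := Ft') A π) (φ : F →+* F') (φb : Ft →+* Ft')
    (h1 : ∀ x ∈ S.O, φ x ∈ S'.O)
    (h2 : ∀ (x : F) (hx : x ∈ S.O) (hx' : φ x ∈ S'.O),
      S'.res ⟨φ x, hx'⟩ = φb (S.res ⟨x, hx⟩)) (x : F) :
    φ x ∈ S'.O ↔ x ∈ S.O := by
  refine ⟨fun hx' => ?_, h1 x⟩
  by_contra hx
  have hx0 : x ≠ 0 := by
    rintro rfl
    exact hx S.O.zero_mem
  have hinv : x⁻¹ ∈ S.O := (S.O.mem_or_inv_mem x).resolve_left hx
  have hnu : ¬ IsUnit (⟨x⁻¹, hinv⟩ : S.O) := by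
    intro hu
    obtain ⟨u, hu⟩ := hu
    apply hx
    have h3 : ((u⁻¹ : S.Oˣ) : S.O) * ⟨x⁻¹, hinv⟩ = 1 := by
      rw [← hu]
      exact u.inv_mul
    have h4 : (((u⁻¹ : S.Oˣ) : S.O) : F) * x⁻¹ = 1 := congrArg Subtype.val h3
    have h5 : (((u⁻¹ : S.Oˣ) : S.O) : F) = x := by
      field_simp at h4
      exact h4
    rw [← h5]
    exact ((u⁻¹ : S.Oˣ) : S.O).2
  have hres : S.res ⟨x⁻¹, hinv⟩ = 0 := (S.res_eq_zero_iff _).2 hnu
  have hinv' : φ x⁻¹ ∈ S'.O := h1 _ hinv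
  have hres' : S'.res ⟨φ x⁻¹, hinv'⟩ = 0 := by
    rw [h2 _ hinv hinv', hres, map_zero]
  have hnu' : ¬ IsUnit (⟨φ x⁻¹, hinv'⟩ : S'.O) := (S'.res_eq_zero_iff _).1 hres'
  apply hnu'
  refine IsUnit.of_mul_eq_one (⟨φ x, hx'⟩ : S'.O) ?_
  apply Subtype.ext
  show φ x⁻¹ * φ x = 1
  rw [← map_mul, inv_mul_cancel₀ hx0, map_one]

end Abstract

/-! ### the two degeneracy maps to the level `M * ℓ * q` -/

variable {M q ℓ : ℕ} [NeZero M] [hq : Fact q.Prime] [NeZero ℓ]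

instance neZero_Mℓ : NeZero (M * ℓ) := ⟨Nat.mul_ne_zero (NeZero.ne M) (NeZero.ne ℓ)⟩

variable (M q ℓ) in
/-- `α : F̄_{Mq} → F̄_{Mℓq}`, the inclusion -/
def phiA : Fb (M * q) →ₐ[Kb] Fb (M * ℓ * q) :=
  (castF (Nat.mul_right_comm M q ℓ)).toAlgHom.comp (heckeAlphaBar Kb (M * q) ℓ)

variable (M q ℓ) in
/-- `β : F̄_{Mq} → F̄_{Mℓq}`, `q ↦ q ^ ℓ` -/
def phiB : Fb (M * q) →ₐ[Kb] Fb (M * ℓ * q) :=
  (castF (Nat.mul_right_comm M q ℓ)).toAlgHom.comp (heckeBetaBar Kb (M * q) ℓ)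

@[simp] theorem coe_phiA (x : Fb (M * q)) :
    ((phiA M q ℓ x : Fb (M * ℓ * q)) : LaurentSeries Kb) = (x : LaurentSeries Kb) := by
  show ((castF (Nat.mul_right_comm M q ℓ) (heckeAlphaBar Kb (M * q) ℓ x) : Fb (M * ℓ * q)) :
    LaurentSeries Kb) = _
  rw [coe_castF, coe_heckeAlphaBar]

@[simp] theorem coe_phiB (x : Fb (M * q)) :
    ((phiB M q ℓ x : Fb (M * ℓ * q)) : LaurentSeries Kb) =
      qExpand Kb ℓ (x : LaurentSeries Kb) := by
  show ((castF (Nat.mul_right_comm M q ℓ) (heckeBetaBar Kb (M * q) ℓ x) : Fb (M * ℓ * q)) :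
    LaurentSeries Kb) = _
  rw [coe_castF, coe_heckeBetaBar]

theorem phiA_jBarD (d : ℕ) [NeZero d] (hd : d ∣ M * q) (hd' : d ∣ M * ℓ * q) :
    phiA M q ℓ (jBarD (M * q) d hd) = jBarD (M * ℓ * q) d hd' := by
  apply Subtype.ext
  rw [coe_phiA, coe_jBarD, coe_jBarD]

theorem phiB_jBarD (d : ℕ) [NeZero d] (hd : d ∣ M * q) (hd' : d * ℓ ∣ M * ℓ * q) :
    phiB M q ℓ (jBarD (M * q) d hd) = jBarD (M * ℓ * q) (d * ℓ) hd' := by
  have h := heckeBetaBar_jBarD (M * q) ℓ d hd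
  show castF (Nat.mul_right_comm M q ℓ) (heckeBetaBar Kb (M * q) ℓ (jBarD (M * q) d hd)) = _
  rw [h]
  exact castF_jBarD _ _ _ _

/-! ### the Atkin–Lehner involutions at `q` of the two levels -/

/-- transport of the index of a generator along `α` -/
def idxA (i : Idx M) : Idx (M * ℓ) := (⟨i.1.1, Dvd.dvd.mul_right i.1.2 ℓ⟩, i.2)

/-- transport of the index of a generator along `β` -/
def idxB (i : Idx M) : Idx (M * ℓ) := (⟨i.1.1 * ℓ, Nat.mul_dvd_mul_right i.1.2 ℓ⟩, i.2)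

theorem swap_idxA (i : Idx M) : swap (M * ℓ) (idxA (ℓ := ℓ) i) = idxA (swap M i) := rfl

theorem swap_idxB (i : Idx M) : swap (M * ℓ) (idxB (ℓ := ℓ) i) = idxB (swap M i) := rfl

theorem phiA_gen (i : Idx M) : phiA M q ℓ (gen M q i) = gen (M * ℓ) q (idxA i) := by
  unfold gen
  rw [phiA_jBarD (lev M q i) (lev_dvd M q i)
    ((lev_dvd M q i).trans ⟨ℓ, (Nat.mul_right_comm M ℓ q)⟩)]
  exact jBarD_congr _ rfl _ _

theorem phiB_gen (i : Idx M) : phiB M q ℓ (gen M q i) = gen (M * ℓ) q (idxB i) := by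
  unfold gen
  have hd' : lev M q i * ℓ ∣ M * ℓ * q := by
    rw [Nat.mul_right_comm M ℓ q]
    exact Nat.mul_dvd_mul_right (lev_dvd M q i) ℓ
  haveI : NeZero (lev M q i * ℓ) :=
    ⟨Nat.mul_ne_zero (NeZero.ne _) (NeZero.ne ℓ)⟩
  rw [phiB_jBarD (lev M q i) (lev_dvd M q i) hd']
  refine jBarD_congr _ ?_ _ _
  obtain ⟨⟨d, hd⟩, b⟩ := i
  cases b
  · simp [lev, idxB]
  · simp [lev, idxB, Nat.mul_right_comm]

variable (hqM : ¬ q ∣ M) (hqMℓ : ¬ q ∣ M * ℓ)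

theorem Wq_gen (i : Idx M) : Wq hqM (gen M q i) = gen M q (swap M i) :=
  atkinLehner_gen hq.out (coprime_of_not_dvd hqM) i

/-- **`W_q` commutes with `α`.** -/
theorem Wq_phiA (x : Fb (M * q)) : Wq hqMℓ (phiA M q ℓ x) = phiA M q ℓ (Wq hqM x) := by
  have h := algHom_ext_Fb (M * q)
    (((Wq hqMℓ : Fb (M * ℓ * q) ≃ₐ[Kb] Fb (M * ℓ * q)) : Fb (M * ℓ * q) →ₐ[Kb]
      Fb (M * ℓ * q)).comp (phiA M q ℓ))
    ((phiA M q ℓ).comp ((Wq hqM : Fb (M * q) ≃ₐ[Kb] Fb (M * q)) : Fb (M * q) →ₐ[Kb]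
      Fb (M * q))) (by
      intro d _ hd
      obtain ⟨i, hi⟩ := genSetB_subset_range (N := M) (ℓ := q) hq.out
        (jBarD_mem_genSetB (M * q) d hd)
      rw [← hi]
      show Wq hqMℓ (phiA M q ℓ (gen M q i)) = phiA M q ℓ (Wq hqM (gen M q i))
      rw [phiA_gen, Wq_gen, Wq_gen, phiA_gen, swap_idxA])
  exact congrArg (fun f => f x) h

/-- **`W_q` commutes with `β`.** -/
theorem Wq_phiB (x : Fb (M * q)) : Wq hqMℓ (phiB M q ℓ x) = phiB M q ℓ (Wq hqM x) := by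
  have h := algHom_ext_Fb (M * q)
    (((Wq hqMℓ : Fb (M * ℓ * q) ≃ₐ[Kb] Fb (M * ℓ * q)) : Fb (M * ℓ * q) →ₐ[Kb]
      Fb (M * ℓ * q)).comp (phiB M q ℓ))
    ((phiB M q ℓ).comp ((Wq hqM : Fb (M * q) ≃ₐ[Kb] Fb (M * q)) : Fb (M * q) →ₐ[Kb]
      Fb (M * q))) (by
      intro d _ hd
      obtain ⟨i, hi⟩ := genSetB_subset_range (N := M) (ℓ := q) hq.out
        (jBarD_mem_genSetB (M * q) d hd)
      rw [← hi]
      show Wq hqMℓ (phiB M q ℓ (gen M q i)) = phiB M q ℓ (Wq hqM (gen M q i))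
      rw [phiB_gen, Wq_gen, Wq_gen, phiB_gen, swap_idxB])
  exact congrArg (fun f => f x) h

/-! ### the Gauss valuation `O1` and its residue map -/

variable (B : ValuationSubring Kb) (hB : B.LiesOverPrime q)

local notation "kB" => IsLocalRing.ResidueField B

theorem mem_O1_iff_coe {N : ℕ} [NeZero N] {x : Fb (N * q)} :
    x ∈ O1 N B hB ↔ (x : LaurentSeries Kb) ∈ gaussRingA B (IsLocalRing.residue B) := Iff.rfl

theorem res1_eq {N : ℕ} [NeZero N] (x : O1 N B hB) :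
    res1 N B hB x = gaussResA B (IsLocalRing.residue B)
      ⟨((x : Fb (N * q)) : LaurentSeries Kb), x.2⟩ := rfl

theorem phiA_mem_O1 {x : Fb (M * q)} (hx : x ∈ O1 M B hB) : phiA M q ℓ x ∈ O1 (M * ℓ) B hB := by
  rw [mem_O1_iff_coe] at hx ⊢
  rwa [coe_phiA]

theorem res1_phiA {x : Fb (M * q)} (hx : x ∈ O1 M B hB) (hx' : phiA M q ℓ x ∈ O1 (M * ℓ) B hB) :
    res1 (M * ℓ) B hB ⟨phiA M q ℓ x, hx'⟩ = res1 M B hB ⟨x, hx⟩ := by
  rw [res1_eq, res1_eq]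
  congr 1
  exact Subtype.ext (coe_phiA x)

theorem phiB_mem_O1 {x : Fb (M * q)} (hx : x ∈ O1 M B hB) : phiB M q ℓ x ∈ O1 (M * ℓ) B hB := by
  rw [mem_O1_iff_coe] at hx ⊢
  rw [coe_phiB]
  exact Fermat.Agent.BR.ResGen.qExpand_mem_gaussRingA ℓ hx

theorem res1_phiB {x : Fb (M * q)} (hx : x ∈ O1 M B hB) (hx' : phiB M q ℓ x ∈ O1 (M * ℓ) B hB) :
    res1 (M * ℓ) B hB ⟨phiB M q ℓ x, hx'⟩ = qExpand kB ℓ (res1 M B hB ⟨x, hx⟩) := by
  rw [res1_eq, res1_eq]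
  rw [← Fermat.Agent.BR.ResGen.gaussResA_qExpand ℓ (mem_O1_iff_coe B hB |>.1 hx)]
  congr 1
  exact Subtype.ext (coe_phiB x)

/-! ### the second valuation `O2 = O1.comap W_q` -/

theorem phiA_mem_O2 {x : Fb (M * q)} (hx : x ∈ O2 B hB hqM) :
    phiA M q ℓ x ∈ O2 B hB hqMℓ := by
  rw [mem_O2_iff] at hx ⊢
  rw [Wq_phiA hqM hqMℓ]
  exact phiA_mem_O1 B hB hx

theorem res2_phiA {x : Fb (M * q)} (hx : x ∈ O2 B hB hqM)
    (hx' : phiA M q ℓ x ∈ O2 B hB hqMℓ) :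
    res2 B hB hqMℓ ⟨phiA M q ℓ x, hx'⟩ = res2 B hB hqM ⟨x, hx⟩ := by
  rw [res2_apply, res2_apply]
  have h1 : (WqO B hB hqMℓ ⟨phiA M q ℓ x, hx'⟩ : O1 (M * ℓ) B hB) =
      ⟨phiA M q ℓ (Wq hqM x), phiA_mem_O1 B hB ((mem_O2_iff B hB hqM).1 hx)⟩ :=
    Subtype.ext (Wq_phiA hqM hqMℓ x)
  rw [h1]
  exact res1_phiA B hB _ _

theorem phiB_mem_O2 {x : Fb (M * q)} (hx : x ∈ O2 B hB hqM) :
    phiB M q ℓ x ∈ O2 B hB hqMℓ := by
  rw [mem_O2_iff] at hx ⊢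
  rw [Wq_phiB hqM hqMℓ]
  exact phiB_mem_O1 B hB hx

theorem res2_phiB {x : Fb (M * q)} (hx : x ∈ O2 B hB hqM)
    (hx' : phiB M q ℓ x ∈ O2 B hB hqMℓ) :
    res2 B hB hqMℓ ⟨phiB M q ℓ x, hx'⟩ = qExpand kB ℓ (res2 B hB hqM ⟨x, hx⟩) := by
  rw [res2_apply, res2_apply]
  have h1 : (WqO B hB hqMℓ ⟨phiB M q ℓ x, hx'⟩ : O1 (M * ℓ) B hB) =
      ⟨phiB M q ℓ (Wq hqM x), phiB_mem_O1 B hB ((mem_O2_iff B hB hqM).1 hx)⟩ :=
    Subtype.ext (Wq_phiB hqM hqMℓ x)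
  rw [h1]
  exact res1_phiB B hB _ _

/-! ### THE TWO-LEVEL COMPATIBILITY for the two components -/

/-- forward membership for `α` -/
theorem phiA_mem (v : Fin 2) {x : Fb (M * q)} (hx : x ∈ (compW B hB hqM v).O) :
    phiA M q ℓ x ∈ (compW B hB hqMℓ v).O := by
  fin_cases v
  · exact phiA_mem_O1 B hB hx
  · exact phiA_mem_O2 hqM hqMℓ B hB hx

/-- **(L1-α, residues)** `res' (α x) = ᾱ (res x)` -/
theorem res_phiA (v : Fin 2) {x : Fb (M * q)} (hx : x ∈ (compW B hB hqM v).O)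
    (hx' : phiA M q ℓ x ∈ (compW B hB hqMℓ v).O) :
    (compW B hB hqMℓ v).res ⟨phiA M q ℓ x, hx'⟩ =
      alphaC kB M ℓ ((compW B hB hqM v).res ⟨x, hx⟩) := by
  apply Subtype.ext
  rw [coe_alphaC]
  fin_cases v
  · exact res1_phiA B hB hx hx'
  · exact res2_phiA hqM hqMℓ B hB hx hx'

/-- forward membership for `β` -/
theorem phiB_mem (v : Fin 2) {x : Fb (M * q)} (hx : x ∈ (compW B hB hqM v).O) :
    phiB M q ℓ x ∈ (compW B hB hqMℓ v).O := by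
  fin_cases v
  · exact phiB_mem_O1 B hB hx
  · exact phiB_mem_O2 hqM hqMℓ B hB hx

/-- **(L1-β, residues)** `res' (β x) = β̄ (res x)` -/
theorem res_phiB (v : Fin 2) {x : Fb (M * q)} (hx : x ∈ (compW B hB hqM v).O)
    (hx' : phiB M q ℓ x ∈ (compW B hB hqMℓ v).O) :
    (compW B hB hqMℓ v).res ⟨phiB M q ℓ x, hx'⟩ =
      betaC kB M ℓ ((compW B hB hqM v).res ⟨x, hx⟩) := by
  apply Subtype.ext
  rw [coe_betaC]
  fin_cases v
  · exact res1_phiB B hB hx hx'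
  · exact res2_phiB hqM hqMℓ B hB hx hx'

/-- **(L1-α)** `O'_v ∩ α(F̄_{Mq}) = α(O_v)` -/
theorem phiA_mem_iff (v : Fin 2) (x : Fb (M * q)) :
    phiA M q ℓ x ∈ (compW B hB hqMℓ v).O ↔ x ∈ (compW B hB hqM v).O :=
  mem_iff_of_res_compat (compW B hB hqM v) (compW B hB hqMℓ v) (phiA M q ℓ).toRingHom
    (alphaC kB M ℓ).toRingHom (fun _ hx => phiA_mem hqM hqMℓ B hB v hx)
    (fun _ hx hx' => res_phiA hqM hqMℓ B hB v hx hx') x

/-- **(L1-β)** `O'_v ∩ β(F̄_{Mq}) = β(O_v)` -/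
theorem phiB_mem_iff (v : Fin 2) (x : Fb (M * q)) :
    phiB M q ℓ x ∈ (compW B hB hqMℓ v).O ↔ x ∈ (compW B hB hqM v).O :=
  mem_iff_of_res_compat (compW B hB hqM v) (compW B hB hqMℓ v) (phiB M q ℓ).toRingHom
    (betaC kB M ℓ).toRingHom (fun _ hx => phiB_mem hqM hqMℓ B hB v hx)
    (fun _ hx hx' => res_phiB hqM hqMℓ B hB v hx hx') x

end Fermat.Agent.FF4.Hecke2.TwoLevel
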