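/-
PROGRAMME II (S40), block A3a D-HECKE2 = K2 + K5 (owner helper24), CONTRACT v1 (sorry-free: the
block outputs are `Prop`s, the consumer lemmas are PROVED from them).

GENERIC OUTPUTS (any semistable setup `S`, exponent `m`):
* `AbPartOut S m`  : the abelian part `x ↦ c` is well defined on `natSub S m`, additive, killed by
                     `m`, and `torSub S m = {x ∈ natSub S m | all abelian parts vanish}`;
* `SlopeOut S m`   : the slopes are well defined on the `m`-torsion, additive, and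
                     `natSub S m = {x | m x = 0, all slopes (from both sides) vanish}`.
MODULAR OUTPUTS (`Dt : ModularData M q B hB hqM`, `ℓ` a prime, `ℓ ∤ M q`; `T_ℓ` = the Prelude's
`heckeOperatorBar (M * q) ℓ`, `T̄_ℓ` = `heckeOperatorC kB M ℓ` of `Defs.lean`):
* `HeckeNatOut Dt ℓ m`, `HeckeTorOut Dt ℓ m` : `T_ℓ` preserves `natSub`, `torSub`;
* `HeckeAbOut Dt ℓ m`    : (K5)  `AbPart x v c → AbPart (T_ℓ x) v (T̄_ℓ c)`;
* `HeckeSlopeOut Dt ℓ m` : (K2)  `(∀ e, IsSlope x e a) → ∀ e, IsSlope (T_ℓ x) e ((ℓ + 1) a)`.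
CONSUMER LEMMAS (proved here):
* `exists_abPart_ne_zero` : `x ∈ natSub ∖ torSub ⟹ ∃ v c, AbPart x v c ∧ c ≠ 0 ∧ m c = 0`;
* `abPart_eigen`          : `AbPart x v c`, `T x = a x`, compatibility ⟹ `T̄ c = a c`   [(S1e)];
* `slope_eigen`           : diagonal slope `a ≠ 0`, `T x = t x`, compatibility ⟹ `t = ℓ + 1` in
                            `ℤ/p`   [(S1d)].
-/
import Mathlib
import Fermat.Agent.FF4.Hecke2.Defs
import Fermat.Agent.BR2.GeoLevel
import Fermat.Prelude.Def_ModularCurve_HeckeModule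

set_option autoImplicit false
set_option linter.unusedSectionVars false
set_option linter.style.haveILetI false

noncomputable section

set_option synthInstance.maxHeartbeats 400000

namespace Fermat.Agent.FF4.Hecke2

open AlgebraicCurve ModularCurve IsLocalRing Fermat.Agent.BR.SS Fermat.Agent.BR2
open Fermat.Agent.X0 Fermat.Agent.BR.Final Fermat.Agent.BR2.SetupOfData Fermat.Agent.BR
open Fermat.Agent.BR.S0 Fermat.Agent.BR.S0.PointDict Fermat.Agent.BR.S0.RedModular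

/-! ### generic outputs -/

section Generic

variable {K F k : Type*} [Field K] [Field F] [Algebra K F] [Field k]
  {A : ValuationSubring K} {π : A →+* k} {ι : Type*} {Ft : ι → Type*}
  [∀ v, Field (Ft v)] [∀ v, Algebra k (Ft v)] {ν : Type*}
  (S : SemistableSetup (F := F) A π ι Ft ν)

/-- **(G-ab)** the abelian part is well defined -/
def AbPartOut (m : ℕ) : Prop :=
  (∀ (x : Pic0 K F) (v : ι) (c c' : Pic0 k (Ft v)),
      AbPart S m x v c → AbPart S m x v c' → c = c') ∧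
  (∀ x : Pic0 K F, x ∈ Filt.natSub S m → ∀ v, ∃ c, AbPart S m x v c) ∧
  (∀ (x : Pic0 K F) (v : ι) (c : Pic0 k (Ft v)), AbPart S m x v c → m • c = 0) ∧
  (∀ (x : Pic0 K F) (n : ℤ) (v : ι) (c : Pic0 k (Ft v)),
      AbPart S m x v c → AbPart S m (n • x) v (n • c)) ∧
  (∀ x : Pic0 K F, x ∈ Filt.natSub S m → (∀ v, AbPart S m x v 0) → x ∈ Filt.torSub S m)

/-- **(G-sl)** the slopes are well defined -/
def SlopeOut (m : ℕ) : Prop :=
  (∀ (x : Pic0 K F) (e : ν) (a a' : ZMod m), IsSlope S m x e a → IsSlope S m x e a' → a = a') ∧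
  (∀ x : Pic0 K F, m • x = 0 → ∀ e, ∃ a, IsSlope S m x e a) ∧
  (∀ (x : Pic0 K F) (n : ℤ) (e : ν) (a : ZMod m),
      IsSlope S m x e a → IsSlope S m (n • x) e ((n : ZMod m) * a)) ∧
  (∀ x : Pic0 K F, m • x = 0 → (∀ e, IsSlope S m x e 0) → (∀ e, IsSlope' S m x e 0) →
      x ∈ Filt.natSub S m)

variable {S}

/-- a class of the finite part outside the toric part has a nonzero abelian part -/
theorem exists_abPart_ne_zero {m : ℕ} (hG : AbPartOut S m) {x : Pic0 K F}
    (hx : x ∈ Filt.natSub S m) (hxt : x ∉ Filt.torSub S m) :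
    ∃ (v : ι) (c : Pic0 k (Ft v)), AbPart S m x v c ∧ c ≠ 0 ∧ m • c = 0 := by
  obtain ⟨-, hex, hm, -, htor⟩ := hG
  by_contra hcon
  simp only [not_exists, not_and] at hcon
  refine hxt (htor x hx fun v => ?_)
  obtain ⟨c, hc⟩ := hex x hx v
  by_cases h0 : c = 0
  · rwa [h0] at hc
  · exact absurd (hm x v c hc) (hcon v c hc h0)

/-- **(S1e)**: the abelian part of an eigenclass is an eigenclass -/
theorem abPart_eigen {m : ℕ} (hG : AbPartOut S m) (T : Pic0 K F →+ Pic0 K F) {v : ι}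
    (Tbar : Pic0 k (Ft v) →+ Pic0 k (Ft v))
    (hT : ∀ (x : Pic0 K F) (c : Pic0 k (Ft v)), AbPart S m x v c → AbPart S m (T x) v (Tbar c))
    {x : Pic0 K F} {c : Pic0 k (Ft v)} (hc : AbPart S m x v c) {a : ℤ} (hx : T x = a • x) :
    Tbar c = a • c := by
  obtain ⟨huniq, -, -, hsmul, -⟩ := hG
  have h1 := hT x c hc
  rw [hx] at h1
  exact huniq _ v _ _ h1 (hsmul x a v c hc)

/-- **(S1d)**: a diagonal nonzero slope forces the eigenvalue `ℓ + 1` modulo `p` -/
theorem slope_eigen {p : ℕ} [Fact p.Prime] (hG : SlopeOut S p) (T : Pic0 K F →+ Pic0 K F)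
    (d : ℕ)
    (hT : ∀ (x : Pic0 K F) (a : ZMod p), (∀ e, IsSlope S p x e a) →
      ∀ e, IsSlope S p (T x) e ((d : ZMod p) * a))
    {x : Pic0 K F} {a : ZMod p} (hdiag : ∀ e, IsSlope S p x e a) (ha : a ≠ 0) (e : ν)
    {t : ℤ} (hx : T x = t • x) : (t : ZMod p) = (d : ZMod p) := by
  obtain ⟨huniq, -, hsmul, -⟩ := hG
  have h1 := hT x a hdiag e
  rw [hx] at h1
  have h2 := huniq _ e _ _ h1 (hsmul x t e a (hdiag e))
  exact (mul_right_cancel₀ ha h2).symm

end Generic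

/-! ### the modular outputs -/

section Modular

variable {M q : ℕ} [NeZero M] [hq : Fact q.Prime]
variable {B : ValuationSubring Kb} {hB : B.LiesOverPrime q} {hqM : ¬ q ∣ M}
variable [IsAlgClosed (ResidueField B)]

local notation "kB" => IsLocalRing.ResidueField B

/-- **(H3-nat)** `T_ℓ` preserves the finite part -/
def HeckeNatOut (Dt : ModularData M q B hB hqM) (ℓ : Nat.Primes) (m : ℕ) : Prop :=
  ∀ x : JZero (M * q), x ∈ Filt.natSub (setup Dt) m →
    heckeOperatorBar (M * q) ℓ x ∈ Filt.natSub (setup Dt) m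

/-- **(H3-tor)** `T_ℓ` preserves the toric part -/
def HeckeTorOut (Dt : ModularData M q B hB hqM) (ℓ : Nat.Primes) (m : ℕ) : Prop :=
  ∀ x : JZero (M * q), x ∈ Filt.torSub (setup Dt) m →
    heckeOperatorBar (M * q) ℓ x ∈ Filt.torSub (setup Dt) m

/-- **(K5) = (H3-ab)** the abelian part is Hecke-equivariant -/
def HeckeAbOut (Dt : ModularData M q B hB hqM) (ℓ : Nat.Primes) (m : ℕ) : Prop :=
  haveI : NeZero (ℓ : ℕ) := ⟨ℓ.2.ne_zero⟩
  ∀ (x : JZero (M * q)) (v : Fin 2) (c : JZeroC kB M), AbPart (setup Dt) m x v c →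
    AbPart (setup Dt) m (heckeOperatorBar (M * q) ℓ x) v (heckeOperatorC kB M ℓ c)

/-- **(K2) = (H3-sl)** the component group is Eisenstein: `T_ℓ` multiplies a diagonal slope by
`ℓ + 1` -/
def HeckeSlopeOut (Dt : ModularData M q B hB hqM) (ℓ : Nat.Primes) (m : ℕ) : Prop :=
  ∀ (x : JZero (M * q)) (a : ZMod m), (∀ e, IsSlope (setup Dt) m x e a) →
    ∀ e, IsSlope (setup Dt) m (heckeOperatorBar (M * q) ℓ x) e ((((ℓ : ℕ) + 1 : ℕ) : ZMod m) * a)

/-- **THE OUTPUT OF THE BLOCK D-HECKE2** at the prime `ℓ ∤ M q`, exponent `m`. -/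
def Hecke2Out (Dt : ModularData M q B hB hqM) (ℓ : Nat.Primes) (m : ℕ) : Prop :=
  HeckeNatOut Dt ℓ m ∧ HeckeTorOut Dt ℓ m ∧ HeckeAbOut Dt ℓ m ∧ HeckeSlopeOut Dt ℓ m

set_option maxHeartbeats 4000000 in
/-- (S1e) in the modular literal -/
theorem heckeOperatorC_abPart_eigen (Dt : ModularData M q B hB hqM) (ℓ : Nat.Primes) {m : ℕ}
    (hG : AbPartOut (setup Dt) m) (hH : HeckeAbOut Dt ℓ m) {x : JZero (M * q)} {v : Fin 2}
    {c : JZeroC kB M} (hc : AbPart (setup Dt) m x v c) {a : ℤ}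
    (hx : heckeOperatorBar (M * q) ℓ x = a • x) :
    haveI : NeZero (ℓ : ℕ) := ⟨ℓ.2.ne_zero⟩
    heckeOperatorC kB M ℓ c = a • c := by
  haveI : NeZero (ℓ : ℕ) := ⟨ℓ.2.ne_zero⟩
  exact abPart_eigen hG (heckeOperatorBar (M * q) ℓ).toAddMonoidHom (heckeOperatorC kB M ℓ)
    (fun x c hc => hH x v c hc) hc hx

set_option maxHeartbeats 4000000 in
/-- (S1d) in the modular literal -/
theorem heckeOperatorBar_slope_eigen (Dt : ModularData M q B hB hqM) (ℓ : Nat.Primes) {p : ℕ}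
    [Fact p.Prime] (hG : SlopeOut (setup Dt) p) (hH : HeckeSlopeOut Dt ℓ p) {x : JZero (M * q)}
    {a : ZMod p} (hdiag : ∀ e, IsSlope (setup Dt) p x e a) (ha : a ≠ 0)
    (e : Crossing (chartDataModular B hB hqM)) {t : ℤ}
    (hx : heckeOperatorBar (M * q) ℓ x = t • x) : (t : ZMod p) = (((ℓ : ℕ) + 1 : ℕ) : ZMod p) :=
  slope_eigen hG (heckeOperatorBar (M * q) ℓ).toAddMonoidHom ((ℓ : ℕ) + 1)
    (fun x a h e => hH x a h e) hdiag ha e hx

end Modular

end Fermat.Agent.FF4.Hecke2
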