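/-
PROGRAMME II (S40), block A3a D-HECKE2 = K2 + K5, LEAF L5 (helper1): the two GENERIC outputs
`AbPartOut S m`, `SlopeOut S m` of `Contract.lean`, PROVED (sorry-free) for every semistable setup
`S : SemistableSetup A π ι Ft ν` from the three standing hypotheses

    (hF : RiemannPkg K F)   (hFt : ∀ v, RiemannPkg k (Ft v))   (hm : m ≠ 0).

No conservation at the nodes (`NodeCons S`) is used for the two outputs.

* `abPart_iff_isAbRes`   : `AbPart S m x v c ↔ BR3.FiltMaps.IsAbRes S m v x c` (binders shuffled);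
* `ord_residue_cast_eq`  : for two representatives `(D, f)`, `(D', f')` of the same class and residues
                           `g`, `g'` of `f`, `f'` on the same component, `ord_Q g' ≡ ord_Q g (mod m)`
                           at EVERY place `Q` (this is the well-definedness of the slopes on both
                           sides of a crossing);
* `isSlope_iff_graphOrd` : `m • x = 0 → (IsSlope S m x e a ↔ graphOrd S m x e = a)`;
* `isSlope_unique`, `isSlope'_unique`, `exists_isSlope`, `exists_isSlope'`, `isSlope_zsmul`,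
  `isSlope'_zsmul`, `isSlope_add`, `isSlope'_add`, `isSlope_eq_of_isRep`, `isSlope'_eq_of_isRep`;
* `isSlope_zero_of_mem_natSub`, `isSlope'_zero_of_mem_natSub` : on the finite part all slopes
  vanish; `mem_natSub_of_isSlope_zero` : the converse (clause 4 of `SlopeOut`);
* `isSlope'_neg_of_isSlope` : UNDER `NodeCons S`, slope `a` from the source side is slope `-a` from
  the target side (so that under `NodeCons S` the hypothesis on `IsSlope'` in clause 4 of
  `SlopeOut` is automatic: `mem_natSub_of_isSlope_zero_of_nodeCons`);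
* `abPart_zsmul`, `abPart_add`, `abPart_unique`, `exists_abPart`, `abPart_nsmul_eq_zero`,
  `mem_torSub_of_abPart_zero`, `abPart_zero_of_mem_torSub`, `mem_natSub_of_abPart`;
* **`abPartOut hF hFt hm : AbPartOut S m`** and **`slopeOut hF hFt hm : SlopeOut S m`**;
* **`abPartOut_setup Dt hm : AbPartOut (setup Dt) m`**, **`slopeOut_setup Dt hm : SlopeOut (setup Dt) m`**
  for the modular setup `setup Dt` of `X₀(M q)` at `q` (`Dt : ModularData M q B hB hqM`), `m ≠ 0`:
  NO further hypothesis.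
-/
import Mathlib
import Fermat.Agent.FF4.Hecke2.Contract
import Fermat.Agent.BR3.FiltMaps
import Fermat.Agent.Val.RiemannPkgBar
import Fermat.Agent.Val.RiemannPkgModL

set_option autoImplicit false
set_option linter.unusedSectionVars false
set_option linter.unusedVariables false

namespace Fermat.Agent.FF4.Hecke2.Generic

open AlgebraicCurve Fermat.Agent.Red Fermat.Agent.BR.SS Fermat.Agent.BR2 Fermat.Agent.BR2.Filt
  Fermat.Agent.BR2.G5 Fermat.Agent.BR3.FiltMaps Fermat.Agent.X0 Fermat.Agent.FF4.Hecke2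

variable {K F k : Type*} [Field K] [Field F] [Algebra K F] [Field k]
  {A : ValuationSubring K} {π : A →+* k} {ι : Type*} {Ft : ι → Type*}
  [∀ v, Field (Ft v)] [∀ v, Algebra k (Ft v)] {ν : Type*}
  {S : SemistableSetup (F := F) A π ι Ft ν}

/-! ### a relation closed under `0`, `+`, `-` is closed under `ℤ`-multiples -/

theorem rel_zsmul {X C : Type*} [AddCommGroup X] [AddCommGroup C] (P : X → C → Prop)
    (h0 : P 0 0) (hadd : ∀ x y c c', P x c → P y c' → P (x + y) (c + c'))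
    (hneg : ∀ x c, P x c → P (-x) (-c)) (n : ℤ) {x : X} {c : C} (h : P x c) :
    P (n • x) (n • c) := by
  let H : AddSubgroup (X × C) :=
    { carrier := {z | P z.1 z.2}
      zero_mem' := h0
      add_mem' := fun {a b} ha hb => hadd a.1 b.1 a.2 b.2 ha hb
      neg_mem' := fun {a} ha => hneg a.1 a.2 ha }
  have h1 : ((x, c) : X × C) ∈ H := h
  have h2 : n • ((x, c) : X × C) ∈ H := H.zsmul_mem h1 n
  exact h2

/-! ### representatives: `ℤ`-multiples -/

theorem isRep_zsmul {m : ℕ} {x : Pic0 K F} {D : Divisor.degZero (K := K) (F := F)} {f : F}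
    (h : IsRep m x D f) (n : ℤ) : IsRep m (n • x) (n • D) (f ^ n) := by
  obtain ⟨n, rfl | rfl⟩ := n.eq_nat_or_neg
  · simpa using isRep_nsmul h n
  · simpa using (isRep_nsmul h n).neg

/-! ### the orders of the residues are well defined modulo `m` -/

/-- Two representatives of the same class, residues on the same component: the orders of the two
residues at any place agree modulo `m`. -/
theorem ord_residue_cast_eq (hF : RiemannPkg K F) {m : ℕ} {x : Pic0 K F}
    {D D' : Divisor.degZero (K := K) (F := F)} {f f' : F} (hR : IsRep m x D f)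
    (hR' : IsRep m x D' f') {v : ι} {g g' : Ft v} (hg : IsResidue S v f g)
    (hg' : IsResidue S v f' g') (Q : Place k (Ft v)) :
    ((Q.ord g' : ℤ) : ZMod m) = ((Q.ord g : ℤ) : ZMod m) := by
  obtain ⟨t, b, ht, hb, hf', -⟩ := isRep_unique hF hR hR'
  obtain ⟨τ, hτ⟩ := exists_isResidue (S := S) v ht
  have h1 : IsResidue S v f' (g * τ ^ m) := by
    rw [hf']
    exact isResidue_const_mul (hg.mul (isResidue_pow hτ m)) hb
  obtain ⟨a, ha, hga⟩ := isResidue_unique h1 hg'
  rw [hga, Q.ord_mul ((map_ne_zero _).mpr ha) (mul_ne_zero hg.ne_zero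
      (pow_ne_zero m hτ.ne_zero)), Place.ord_algebraMap, zero_add,
      Q.ord_mul hg.ne_zero (pow_ne_zero m hτ.ne_zero), Place.ord_pow]
  simp

/-! ### the abelian part -/

theorem abPart_iff_isAbRes {m : ℕ} {x : Pic0 K F} {v : ι} {c : Pic0 k (Ft v)} :
    AbPart S m x v c ↔ IsAbRes S m v x c := by
  constructor
  · rintro ⟨D, f, hR, g, hg, E, hE, rfl⟩
    exact ⟨D, f, g, E, hR, hg, hE, rfl⟩
  · rintro ⟨D, f, g, E, hR, hg, hE, rfl⟩
    exact ⟨D, f, hR, g, hg, E, hE, rfl⟩

theorem abPart_zero (m : ℕ) (v : ι) : AbPart S m 0 v 0 :=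
  abPart_iff_isAbRes.mpr (isAbRes_zero m v)

theorem abPart_add {m : ℕ} {x y : Pic0 K F} {v : ι} {c c' : Pic0 k (Ft v)}
    (h : AbPart S m x v c) (h' : AbPart S m y v c') : AbPart S m (x + y) v (c + c') :=
  abPart_iff_isAbRes.mpr ((abPart_iff_isAbRes.mp h).add (abPart_iff_isAbRes.mp h'))

theorem abPart_neg {m : ℕ} {x : Pic0 K F} {v : ι} {c : Pic0 k (Ft v)}
    (h : AbPart S m x v c) : AbPart S m (-x) v (-c) := by
  obtain ⟨D, f, hR, g, hg, E, hE, rfl⟩ := h
  refine ⟨-D, f⁻¹, hR.neg, g⁻¹, hg.inv, -E, fun Q => ?_, rfl⟩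
  rw [Q.ord_inv, hE Q, AddSubgroup.coe_neg, Finsupp.neg_apply, mul_neg]

theorem abPart_zsmul {m : ℕ} {x : Pic0 K F} {v : ι} {c : Pic0 k (Ft v)}
    (h : AbPart S m x v c) (n : ℤ) : AbPart S m (n • x) v (n • c) :=
  rel_zsmul (fun x c => AbPart S m x v c) (abPart_zero m v)
    (fun _ _ _ _ h h' => abPart_add h h') (fun _ _ h => abPart_neg h) n h

/-- The abelian part is well defined. -/
theorem abPart_unique (hF : RiemannPkg K F) {m : ℕ} (hm : m ≠ 0) {x : Pic0 K F} {v : ι}
    {c c' : Pic0 k (Ft v)} (h : AbPart S m x v c) (h' : AbPart S m x v c') : c = c' :=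
  IsAbRes.unique hF hm (abPart_iff_isAbRes.mp h) (abPart_iff_isAbRes.mp h')

/-- The abelian part exists on the finite part. -/
theorem exists_abPart (hFt : ∀ v, RiemannPkg k (Ft v)) {m : ℕ} (hm : m ≠ 0) {x : Pic0 K F}
    (hx : x ∈ natSub S m) (v : ι) : ∃ c : Pic0 k (Ft v), AbPart S m x v c := by
  obtain ⟨c, hc⟩ := exists_isAbRes hFt hm v hx
  exact ⟨c, abPart_iff_isAbRes.mpr hc⟩

/-- a class with an abelian part is killed by `m` -/
theorem nsmul_eq_zero_of_abPart {m : ℕ} {x : Pic0 K F} {v : ι} {c : Pic0 k (Ft v)}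
    (h : AbPart S m x v c) : m • x = 0 := by
  obtain ⟨D, f, hR, -⟩ := h
  exact nsmul_eq_zero_of_isRep hR

/-- The abelian part is killed by `m`. -/
theorem abPart_nsmul_eq_zero {m : ℕ} {x : Pic0 K F} {v : ι} {c : Pic0 k (Ft v)}
    (h : AbPart S m x v c) : m • c = 0 := by
  obtain ⟨D, f, hR, g, hg, E, hE, rfl⟩ := h
  show Pic0.mk (m • E) = 0
  rw [mk_eq_zero_iff]
  exact ⟨g, hg.ne_zero, fun Q => by
    rw [AddSubgroup.coe_nsmul, Finsupp.smul_apply, nsmul_eq_mul, hE Q]⟩

/-- A class of the finite part all of whose abelian parts vanish lies in the toric part. -/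
theorem mem_torSub_of_abPart_zero (hF : RiemannPkg K F) (hFt : ∀ v, RiemannPkg k (Ft v)) {m : ℕ}
    (hm : m ≠ 0) {x : Pic0 K F} (hx : x ∈ natSub S m) (h0 : ∀ v, AbPart S m x v 0) :
    x ∈ torSub S m :=
  (abRes_eq_zero_iff hF hFt hm ⟨x, hx⟩).mp fun v =>
    abRes_eq_of_isAbRes hF hFt hm (y := ⟨x, hx⟩) (abPart_iff_isAbRes.mp (h0 v))

/-- The abelian parts of a class of the toric part vanish. -/
theorem abPart_zero_of_mem_torSub (hF : RiemannPkg K F) (hFt : ∀ v, RiemannPkg k (Ft v)) {m : ℕ}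
    (hm : m ≠ 0) {x : Pic0 K F} (hx : x ∈ torSub S m) (v : ι) : AbPart S m x v 0 := by
  have hxn : x ∈ natSub S m := torSub_le_natSub hFt hm hx
  have h1 := (abRes_eq_zero_iff hF hFt hm ⟨x, hxn⟩).mpr hx v
  have h2 := isAbRes_abRes hF hFt hm v ⟨x, hxn⟩
  rw [h1] at h2
  exact abPart_iff_isAbRes.mpr h2

/-- An `m`-torsion class with an abelian part on every component lies in the finite part. -/
theorem mem_natSub_of_abPart (hF : RiemannPkg K F) (hFt : ∀ v, RiemannPkg k (Ft v)) {m : ℕ}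
    {x : Pic0 K F} (hx : m • x = 0) (h : ∀ v, ∃ c, AbPart S m x v c) : x ∈ natSub S m := by
  obtain ⟨D, f, hR⟩ := exists_isRep (K := K) (F := F) hx
  refine ⟨D, f, hR, fun v => ?_⟩
  obtain ⟨c, D', f', hR', g', hg', E, hE, -⟩ := h v
  obtain ⟨t, b, ht, hb, hf', -⟩ := isRep_unique hF hR' hR
  obtain ⟨τ, hτ⟩ := exists_isResidue (S := S) v ht
  have h1 : IsResidue S v f (g' * τ ^ m) := by
    rw [hf']
    exact isResidue_const_mul (hg'.mul (isResidue_pow hτ m)) hb
  have := (hFt v).principal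
  refine ⟨g' * τ ^ m, h1, (E : Divisor k (Ft v)) + divOf k τ, fun Q => ?_⟩
  rw [Q.ord_mul hg'.ne_zero (pow_ne_zero m hτ.ne_zero), Place.ord_pow, hE Q, Finsupp.add_apply,
    divOf_apply, mul_add]

/-- **(G-ab)**: the first generic output of the block D-HECKE2. -/
theorem abPartOut (hF : RiemannPkg K F) (hFt : ∀ v, RiemannPkg k (Ft v)) {m : ℕ} (hm : m ≠ 0) :
    AbPartOut S m :=
  ⟨fun _ _ _ _ h h' => abPart_unique hF hm h h', fun _ hx v => exists_abPart hFt hm hx v,
    fun _ _ _ h => abPart_nsmul_eq_zero h, fun _ n _ _ h => abPart_zsmul h n,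
    fun _ hx h0 => mem_torSub_of_abPart_zero hF hFt hm hx h0⟩


/-! ### the slopes -/

theorem isSlope_zero (m : ℕ) (e : ν) : IsSlope S m 0 e 0 :=
  ⟨0, 1, isRep_zero m, 1, isResidue_one _, by simp⟩

theorem isSlope'_zero (m : ℕ) (e : ν) : IsSlope' S m 0 e 0 :=
  ⟨0, 1, isRep_zero m, 1, isResidue_one _, by simp⟩

theorem isSlope_add {m : ℕ} {x y : Pic0 K F} {e : ν} {a a' : ZMod m} (h : IsSlope S m x e a)
    (h' : IsSlope S m y e a') : IsSlope S m (x + y) e (a + a') := by
  obtain ⟨D, f, hR, g, hg, rfl⟩ := h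
  obtain ⟨D', f', hR', g', hg', rfl⟩ := h'
  refine ⟨D + D', f * f', hR.add hR', g * g', hg.mul hg', ?_⟩
  rw [(S.s₁ e).ord_mul hg.ne_zero hg'.ne_zero, Int.cast_add]

theorem isSlope'_add {m : ℕ} {x y : Pic0 K F} {e : ν} {a a' : ZMod m} (h : IsSlope' S m x e a)
    (h' : IsSlope' S m y e a') : IsSlope' S m (x + y) e (a + a') := by
  obtain ⟨D, f, hR, g, hg, rfl⟩ := h
  obtain ⟨D', f', hR', g', hg', rfl⟩ := h'
  refine ⟨D + D', f * f', hR.add hR', g * g', hg.mul hg', ?_⟩
  rw [(S.s₂ e).ord_mul hg.ne_zero hg'.ne_zero, Int.cast_add]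

theorem isSlope_neg {m : ℕ} {x : Pic0 K F} {e : ν} {a : ZMod m} (h : IsSlope S m x e a) :
    IsSlope S m (-x) e (-a) := by
  obtain ⟨D, f, hR, g, hg, rfl⟩ := h
  refine ⟨-D, f⁻¹, hR.neg, g⁻¹, hg.inv, ?_⟩
  rw [(S.s₁ e).ord_inv, Int.cast_neg]

theorem isSlope'_neg {m : ℕ} {x : Pic0 K F} {e : ν} {a : ZMod m} (h : IsSlope' S m x e a) :
    IsSlope' S m (-x) e (-a) := by
  obtain ⟨D, f, hR, g, hg, rfl⟩ := h
  refine ⟨-D, f⁻¹, hR.neg, g⁻¹, hg.inv, ?_⟩
  rw [(S.s₂ e).ord_inv, Int.cast_neg]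

theorem isSlope_zsmul {m : ℕ} {x : Pic0 K F} {e : ν} {a : ZMod m} (h : IsSlope S m x e a)
    (n : ℤ) : IsSlope S m (n • x) e ((n : ZMod m) * a) := by
  have h1 := rel_zsmul (fun x a => IsSlope S m x e a) (isSlope_zero m e)
    (fun _ _ _ _ h h' => isSlope_add h h') (fun _ _ h => isSlope_neg h) n h
  rwa [zsmul_eq_mul] at h1

theorem isSlope'_zsmul {m : ℕ} {x : Pic0 K F} {e : ν} {a : ZMod m} (h : IsSlope' S m x e a)
    (n : ℤ) : IsSlope' S m (n • x) e ((n : ZMod m) * a) := by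
  have h1 := rel_zsmul (fun x a => IsSlope' S m x e a) (isSlope'_zero m e)
    (fun _ _ _ _ h h' => isSlope'_add h h') (fun _ _ h => isSlope'_neg h) n h
  rwa [zsmul_eq_mul] at h1

/-- a class with a slope is killed by `m` -/
theorem nsmul_eq_zero_of_isSlope {m : ℕ} {x : Pic0 K F} {e : ν} {a : ZMod m}
    (h : IsSlope S m x e a) : m • x = 0 := by
  obtain ⟨D, f, hR, -⟩ := h
  exact nsmul_eq_zero_of_isRep hR

theorem nsmul_eq_zero_of_isSlope' {m : ℕ} {x : Pic0 K F} {e : ν} {a : ZMod m}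
    (h : IsSlope' S m x e a) : m • x = 0 := by
  obtain ⟨D, f, hR, -⟩ := h
  exact nsmul_eq_zero_of_isRep hR

/-- The slope (source side) is well defined. -/
theorem isSlope_unique (hF : RiemannPkg K F) {m : ℕ} {x : Pic0 K F} {e : ν} {a a' : ZMod m}
    (h : IsSlope S m x e a) (h' : IsSlope S m x e a') : a = a' := by
  obtain ⟨D, f, hR, g, hg, rfl⟩ := h
  obtain ⟨D', f', hR', g', hg', rfl⟩ := h'
  exact (ord_residue_cast_eq hF hR hR' hg hg' (S.s₁ e)).symm

/-- The slope (target side) is well defined. -/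
theorem isSlope'_unique (hF : RiemannPkg K F) {m : ℕ} {x : Pic0 K F} {e : ν} {a a' : ZMod m}
    (h : IsSlope' S m x e a) (h' : IsSlope' S m x e a') : a = a' := by
  obtain ⟨D, f, hR, g, hg, rfl⟩ := h
  obtain ⟨D', f', hR', g', hg', rfl⟩ := h'
  exact (ord_residue_cast_eq hF hR hR' hg hg' (S.s₂ e)).symm

/-- The slope computed from ANY representative and ANY residue (source side). -/
theorem isSlope_eq_of_isRep (hF : RiemannPkg K F) {m : ℕ} {x : Pic0 K F} {e : ν} {a : ZMod m}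
    (h : IsSlope S m x e a) {D : Divisor.degZero (K := K) (F := F)} {f : F} (hR : IsRep m x D f)
    {g : Ft (S.src e)} (hg : IsResidue S (S.src e) f g) :
    (((S.s₁ e).ord g : ℤ) : ZMod m) = a :=
  isSlope_unique hF ⟨D, f, hR, g, hg, rfl⟩ h

/-- The slope computed from ANY representative and ANY residue (target side). -/
theorem isSlope'_eq_of_isRep (hF : RiemannPkg K F) {m : ℕ} {x : Pic0 K F} {e : ν} {a : ZMod m}
    (h : IsSlope' S m x e a) {D : Divisor.degZero (K := K) (F := F)} {f : F} (hR : IsRep m x D f)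
    {g : Ft (S.tgt e)} (hg : IsResidue S (S.tgt e) f g) :
    (((S.s₂ e).ord g : ℤ) : ZMod m) = a :=
  isSlope'_unique hF ⟨D, f, hR, g, hg, rfl⟩ h

theorem exists_isSlope {m : ℕ} {x : Pic0 K F} (hx : m • x = 0) (e : ν) :
    ∃ a : ZMod m, IsSlope S m x e a := by
  obtain ⟨D, f, hR⟩ := exists_isRep (K := K) (F := F) hx
  obtain ⟨g, hg⟩ := exists_isResidue (S := S) (S.src e) hR.2.1
  exact ⟨_, D, f, hR, g, hg, rfl⟩

theorem exists_isSlope' {m : ℕ} {x : Pic0 K F} (hx : m • x = 0) (e : ν) :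
    ∃ a : ZMod m, IsSlope' S m x e a := by
  obtain ⟨D, f, hR⟩ := exists_isRep (K := K) (F := F) hx
  obtain ⟨g, hg⟩ := exists_isResidue (S := S) (S.tgt e) hR.2.1
  exact ⟨_, D, f, hR, g, hg, rfl⟩

/-- The slopes are the values of the graph part `BR3.FiltMaps.graphOrd`. -/
theorem isSlope_iff_graphOrd (hF : RiemannPkg K F) {m : ℕ} {x : Pic0 K F} (hx : m • x = 0)
    {e : ν} {a : ZMod m} : IsSlope S m x e a ↔ graphOrd S m x e = a := by
  constructor
  · rintro ⟨D, f, hR, g, hg, rfl⟩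
    exact graphOrd_eq hF hR hg
  · rintro rfl
    obtain ⟨D, f, hR⟩ := exists_isRep (K := K) (F := F) hx
    obtain ⟨g, hg⟩ := exists_isResidue (S := S) (S.src e) hR.2.1
    exact ⟨D, f, hR, g, hg, (graphOrd_eq hF hR hg).symm⟩

/-- On the finite part the slopes (source side) vanish. -/
theorem isSlope_zero_of_mem_natSub {m : ℕ} {x : Pic0 K F} (hx : x ∈ natSub S m) (e : ν) :
    IsSlope S m x e 0 := by
  obtain ⟨D, f, hR, hres⟩ := hx
  obtain ⟨g, hg, E, hE⟩ := hres (S.src e)
  refine ⟨D, f, hR, g, hg, ?_⟩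
  rw [hE]
  simp

/-- On the finite part the slopes (target side) vanish. -/
theorem isSlope'_zero_of_mem_natSub {m : ℕ} {x : Pic0 K F} (hx : x ∈ natSub S m) (e : ν) :
    IsSlope' S m x e 0 := by
  obtain ⟨D, f, hR, hres⟩ := hx
  obtain ⟨g, hg, E, hE⟩ := hres (S.tgt e)
  refine ⟨D, f, hR, g, hg, ?_⟩
  rw [hE]
  simp

/-- **An `m`-torsion class all of whose slopes (from both sides) vanish lies in the finite part.**
No conservation at the nodes is needed: at the smooth points the orders of the residues are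
divisible by `m` by `ord_residue_eq`, at the branch points by the hypotheses. -/
theorem mem_natSub_of_isSlope_zero (hF : RiemannPkg K F) (hFt : ∀ v, RiemannPkg k (Ft v))
    {m : ℕ} (hm : m ≠ 0) {x : Pic0 K F} (hx : m • x = 0) (h1 : ∀ e, IsSlope S m x e 0)
    (h2 : ∀ e, IsSlope' S m x e 0) : x ∈ natSub S m := by
  have : NeZero m := ⟨hm⟩
  obtain ⟨D, f, hR⟩ := exists_isRep (K := K) (F := F) hx
  have hf : f ≠ 0 := hR.2.1
  refine ⟨D, f, hR, fun v => ?_⟩
  obtain ⟨g, hg⟩ := exists_isResidue (S := S) v hf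
  have := (hFt v).principal
  have hdvd : ∀ Q : Place k (Ft v), (m : ℤ) ∣ Q.ord g := by
    intro Q
    by_cases hQ : S.IsBranch ⟨v, Q⟩
    · obtain ⟨e, h | h⟩ := hQ
      · obtain ⟨rfl, h3⟩ := Sigma.mk.inj_iff.mp h
        have h4 := eq_of_heq h3
        subst h4
        exact (ZMod.intCast_zmod_eq_zero_iff_dvd _ _).mp (isSlope_eq_of_isRep hF (h1 e) hR hg)
      · obtain ⟨rfl, h3⟩ := Sigma.mk.inj_iff.mp h
        have h4 := eq_of_heq h3
        subst h4
        exact (ZMod.intCast_zmod_eq_zero_iff_dvd _ _).mp (isSlope'_eq_of_isRep hF (h2 e) hR hg)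
    · rw [ord_residue_eq hR hg hQ]
      exact dvd_mul_right _ _
  refine ⟨g, hg, (divOf k g).mapRange (fun z => z / (m : ℤ)) (by simp), fun Q => ?_⟩
  rw [Finsupp.mapRange_apply, divOf_apply, Int.mul_ediv_cancel' (hdvd Q)]

/-- UNDER conservation at the nodes: slope `a` from the source side is slope `-a` from the target
side. -/
theorem isSlope'_neg_of_isSlope (hN : NodeCons S) (hF : RiemannPkg K F) {m : ℕ} {x : Pic0 K F}
    {e : ν} {a : ZMod m} (h : IsSlope S m x e a) : IsSlope' S m x e (-a) := by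
  obtain ⟨D, f, hR, g₁, hg₁, rfl⟩ := h
  obtain ⟨g₂, hg₂⟩ := exists_isResidue (S := S) (S.tgt e) hR.2.1
  refine ⟨D, f, hR, g₂, hg₂, ?_⟩
  have h5 := hN e f g₁ g₂ hg₁ hg₂ (m • (D : Divisor K F)) (fun P => hR.2.2 P)
  rw [Finsupp.mapDomain_smul, Finsupp.smul_apply, nsmul_eq_mul] at h5
  have h6 : (S.s₂ e).ord g₂ = (m : ℤ) * _ - (S.s₁ e).ord g₁ := eq_sub_of_add_eq' h5
  rw [h6]
  simp

/-- UNDER conservation at the nodes the source slopes alone detect the finite part. -/
theorem mem_natSub_of_isSlope_zero_of_nodeCons (hN : NodeCons S) (hF : RiemannPkg K F)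
    (hFt : ∀ v, RiemannPkg k (Ft v)) {m : ℕ} (hm : m ≠ 0) {x : Pic0 K F} (hx : m • x = 0)
    (h1 : ∀ e, IsSlope S m x e 0) : x ∈ natSub S m :=
  mem_natSub_of_isSlope_zero hF hFt hm hx h1 fun e => by
    simpa using isSlope'_neg_of_isSlope hN hF (h1 e)

/-- **(G-sl)**: the second generic output of the block D-HECKE2. -/
theorem slopeOut (hF : RiemannPkg K F) (hFt : ∀ v, RiemannPkg k (Ft v)) {m : ℕ} (hm : m ≠ 0) :
    SlopeOut S m :=
  ⟨fun _ _ _ _ h h' => isSlope_unique hF h h', fun _ hx e => exists_isSlope hx e,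
    fun _ n _ _ h => isSlope_zsmul h n, fun _ hx h1 h2 => mem_natSub_of_isSlope_zero hF hFt hm hx h1 h2⟩


/-! ### the modular setup -/

section Modular

open ModularCurve IsLocalRing Fermat.Agent.BR.Final Fermat.Agent.BR2.SetupOfData
  Fermat.Agent.BR.S0.RedModular

variable {M q : ℕ} [NeZero M] [hq : Fact q.Prime]
variable {B : ValuationSubring (AlgebraicClosure ℚ)} {hB : B.LiesOverPrime q} {hqM : ¬ q ∣ M}
variable [IsAlgClosed (ResidueField B)]

/-- **(G-ab) for the modular setup** of `X₀(M q)` at `q`. -/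
theorem abPartOut_setup (Dt : ModularData M q B hB hqM) {m : ℕ} (hm : m ≠ 0) :
    AbPartOut (setup Dt) m :=
  abPartOut (Fermat.Agent.Val.riemannPkg_bar (M * q))
    (fun _ => Fermat.Agent.Val.riemannPkg_modL_residueField M hqM B hB) hm

/-- **(G-sl) for the modular setup** of `X₀(M q)` at `q`. -/
theorem slopeOut_setup (Dt : ModularData M q B hB hqM) {m : ℕ} (hm : m ≠ 0) :
    SlopeOut (setup Dt) m :=
  slopeOut (Fermat.Agent.Val.riemannPkg_bar (M * q))
    (fun _ => Fermat.Agent.Val.riemannPkg_modL_residueField M hqM B hB) hm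

end Modular

end Fermat.Agent.FF4.Hecke2.Generic
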