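/-
PROGRAMME II (S44), block A3a D-HECKE2, SEAM LEMMA (E1) of the blueprint #1869 (helper1): for the
end game of Case I.

`x` an `m`-torsion class of `J₀(M q)` with `alphaDown x = 0`, `(D, f)` a representative, `g` a residue
of `f` on the component `0` of the semistable setup of `X₀(M q)` at `q`. If `g` is a constant times
an `m`-th power then `x` lies in the toric part `torSub (setup Dt) m`.  Hence for
`x ∉ torSub (setup Dt) m` the residue `g̃ := res₀ f` is NOT in `k · (F̃)^m`, and `b := Θ g̃ / g̃ ≠ 0`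
by K8q (b).

Proof = the first half of `BR2.G5.smul_mem_torSub_of_push_eq_zero` (without the exponent `e₀`):
`(NRα)` — a THEOREM on main, `BR2.G5ModularFinal.nrAlpha_of_compW` — says that `g₁ · σ̄₀ g₂` is a
residue at the level `M` of `N_α f` for residues `g₁, g₂` of `f` on the two components;
`α_* x = 0` makes `N_α f` a constant times an `m`-th power, hence (`G5.exists_residue_eq_const_mul_pow`)
`g₁ · σ̄₀ g₂ ∈ k · F̃^m`; if `g₁ ∈ k · F̃^m` then `σ̄₀ g₂`, hence `g₂` (apply `σ̄₀⁻¹`), is in `k · F̃^m`: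
both residues of the representative `(D, f)` are `m`-th powers up to constants, i.e. `x ∈ torSub`.

* `mem_torSub_of_residue_zero_pow`  : the abstract statement (two components, `(NRα)` a hypothesis);
* `mem_torSub_of_residue_one_pow`   : the same from the component `1`;
* `mem_torSub_setup_of_residue_one_pow`, `residue_one_not_pow` : the twins on the component `1`
  (with `betaDown` and `(NRβ)`);
* `mem_torSub_setup_of_residue_zero_pow`, **`residue_zero_not_pow`** : the modular instance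
  (literal of #1869 §1; the hypothesis `x ∈ natSub` of the literal is NOT needed and kept only as an
  unused binder in `residue_zero_not_pow'`).
-/
import Mathlib
import Fermat.Agent.FF4.Hecke2.Generic
import Fermat.Agent.BR2.G5ModularFinal
import Fermat.Agent.BR2.GeoLevel

set_option autoImplicit false
set_option linter.unusedSectionVars false
set_option linter.unusedVariables false
set_option linter.style.haveILetI false
set_option synthInstance.maxHeartbeats 400000

noncomputable section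

namespace Fermat.Agent.FF4.Hecke2.ResidueZero

open AlgebraicCurve ModularCurve IsLocalRing Fermat.Agent.Red Fermat.Agent.X0 Fermat.Agent.Hecke
  Fermat.Agent.Jac Fermat.Agent.Val Fermat.Agent.BR Fermat.Agent.BR.SS Fermat.Agent.BR.S0
  Fermat.Agent.BR2 Fermat.Agent.BR2.G5

/-! ### the abstract statement -/

section Abstract

variable {K F F₀ k Ft₀ : Type*} [Field K] [Field F] [Algebra K F] [Field F₀] [Algebra K F₀]
  [Field k] [Field Ft₀] [Algebra k Ft₀] {A : ValuationSubring K} {π : A →+* k} {ν : Type*}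

/-- a constant times an `m`-th power, transported by the inverse of a semilinear automorphism -/
theorem exists_eq_of_smul_eq (σ₀ : SemilinearAut k Ft₀) {m : ℕ} {g w : Ft₀} {a : k}
    (h : σ₀ • g = algebraMap k Ft₀ a * w ^ m) :
    ∃ (u : Ft₀) (c : k), g = algebraMap k Ft₀ c * u ^ m := by
  refine ⟨σ₀⁻¹ • w, SemilinearAut.baseAut σ₀⁻¹ a, ?_⟩
  have h1 : g = σ₀⁻¹ • (algebraMap k Ft₀ a * w ^ m) := by rw [← h, inv_smul_smul]
  rw [h1, smul_mul', smul_pow', SemilinearAut.smul_algebraMap]

/-- **(E1), abstract form, from the component `0`.** -/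
theorem mem_torSub_of_residue_zero_pow [HasPrincipalDivisors K F₀] [HasPrincipalDivisors K F]
    (S : SemistableSetup (F := F) A π (Fin 2) (fun _ => Ft₀) ν)
    (C₀ : ConstRed (F := F₀) (Ft := Ft₀) A π) (hF₀ : RiemannPkg K F₀) (φα : F₀ →ₐ[K] F)
    (hφα : φα.toRingHom.IsIntegral) (hfinα : FiniteAlong K φα) (hNα : NormFormulaAlong K φα hfinα)
    (σ₀ : SemilinearAut k Ft₀)
    (NRα : ∀ (f : F) (g₁ g₂ : Ft₀), Filt.IsResidue S 0 f g₁ → Filt.IsResidue S 1 f g₂ →
      IsRes C₀ (normAlong φα f) (g₁ * σ₀ • g₂))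
    {m : ℕ} {x : Pic0 K F} {D : Divisor.degZero (K := K) (F := F)} {f : F}
    (hR : Filt.IsRep m x D f) {g : Ft₀} (hg : Filt.IsResidue S 0 f g)
    (hα : PicFunct.pic0Push φα hφα hfinα hNα x = 0)
    (hpow : ∃ (u : Ft₀) (c : k), g = algebraMap k Ft₀ c * u ^ m) : x ∈ Filt.torSub S m := by
  obtain ⟨hDx, hf, hD⟩ := id hR
  subst hDx
  obtain ⟨g₂, hg₂⟩ := Filt.exists_isResidue (S := S) 1 hf
  obtain ⟨w, a, hw⟩ := exists_residue_eq_const_mul_pow C₀ hF₀ φα hφα hfinα hNα hf hD hα
    (NRα f g g₂ hg hg₂)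
  obtain ⟨u, c, hu⟩ := hpow
  have hg0 : g ≠ 0 := hg.ne_zero
  have hc0 : c ≠ 0 := by
    rintro rfl
    rw [map_zero, zero_mul] at hu
    exact hg0 hu
  have hum : u ^ m ≠ 0 := by
    intro h0
    rw [h0, mul_zero] at hu
    exact hg0 hu
  have hc0' : algebraMap k Ft₀ c ≠ 0 := (map_ne_zero _).mpr hc0
  -- `σ₀ • g₂` is a constant times an `m`-th power
  have h2 : σ₀ • g₂ = algebraMap k Ft₀ (a * c⁻¹) * (w * u⁻¹) ^ m := by
    rw [hu] at hw
    rw [map_mul, map_inv₀, mul_pow, inv_pow]
    field_simp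
    rw [← hw]
    ring
  obtain ⟨u₂, c₂, hu₂⟩ := exists_eq_of_smul_eq σ₀ h2
  refine ⟨D, f, hR, fun v => ?_⟩
  have hv : v = 0 ∨ v = 1 := by
    fin_cases v
    · exact Or.inl rfl
    · exact Or.inr rfl
  rcases hv with rfl | rfl
  · exact ⟨g, hg, u, c, hu⟩
  · exact ⟨g₂, hg₂, u₂, c₂, hu₂⟩

/-- **(E1), abstract form, from the component `1`.** -/
theorem mem_torSub_of_residue_one_pow [HasPrincipalDivisors K F₀] [HasPrincipalDivisors K F]
    (S : SemistableSetup (F := F) A π (Fin 2) (fun _ => Ft₀) ν)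
    (C₀ : ConstRed (F := F₀) (Ft := Ft₀) A π) (hF₀ : RiemannPkg K F₀) (φβ : F₀ →ₐ[K] F)
    (hφβ : φβ.toRingHom.IsIntegral) (hfinβ : FiniteAlong K φβ) (hNβ : NormFormulaAlong K φβ hfinβ)
    (σ₀ : SemilinearAut k Ft₀)
    (NRβ : ∀ (f : F) (g₁ g₂ : Ft₀), Filt.IsResidue S 0 f g₁ → Filt.IsResidue S 1 f g₂ →
      IsRes C₀ (normAlong φβ f) (σ₀ • g₁ * g₂))
    {m : ℕ} {x : Pic0 K F} {D : Divisor.degZero (K := K) (F := F)} {f : F}
    (hR : Filt.IsRep m x D f) {g : Ft₀} (hg : Filt.IsResidue S 1 f g)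
    (hβ : PicFunct.pic0Push φβ hφβ hfinβ hNβ x = 0)
    (hpow : ∃ (u : Ft₀) (c : k), g = algebraMap k Ft₀ c * u ^ m) : x ∈ Filt.torSub S m := by
  obtain ⟨hDx, hf, hD⟩ := id hR
  subst hDx
  obtain ⟨g₁, hg₁⟩ := Filt.exists_isResidue (S := S) 0 hf
  obtain ⟨w, a, hw⟩ := exists_residue_eq_const_mul_pow C₀ hF₀ φβ hφβ hfinβ hNβ hf hD hβ
    (NRβ f g₁ g hg₁ hg)
  obtain ⟨u, c, hu⟩ := hpow
  have hg0 : g ≠ 0 := hg.ne_zero
  have hc0 : c ≠ 0 := by
    rintro rfl
    rw [map_zero, zero_mul] at hu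
    exact hg0 hu
  have hum : u ^ m ≠ 0 := by
    intro h0
    rw [h0, mul_zero] at hu
    exact hg0 hu
  have hc0' : algebraMap k Ft₀ c ≠ 0 := (map_ne_zero _).mpr hc0
  have h2 : σ₀ • g₁ = algebraMap k Ft₀ (a * c⁻¹) * (w * u⁻¹) ^ m := by
    rw [hu] at hw
    rw [map_mul, map_inv₀, mul_pow, inv_pow]
    field_simp
    rw [← hw]
    ring
  obtain ⟨u₁, c₁, hu₁⟩ := exists_eq_of_smul_eq σ₀ h2
  refine ⟨D, f, hR, fun v => ?_⟩
  have hv : v = 0 ∨ v = 1 := by
    fin_cases v
    · exact Or.inl rfl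
    · exact Or.inr rfl
  rcases hv with rfl | rfl
  · exact ⟨g₁, hg₁, u₁, c₁, hu₁⟩
  · exact ⟨g, hg, u, c, hu⟩

end Abstract

/-! ### the modular instance -/

section Modular

open Fermat.Agent.BR.Final Fermat.Agent.BR2.SetupOfData Fermat.Agent.BR.S0.RedModular

variable {M q : ℕ} [NeZero M] [hq : Fact q.Prime]
variable {B : ValuationSubring Kb} {hB : B.LiesOverPrime q} {hqM : ¬ q ∣ M}
variable [IsAlgClosed (ResidueField B)]

local notation "kB" => IsLocalRing.ResidueField B
local notation "FtM" => modularFunctionFieldFullC (IsLocalRing.ResidueField B) M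

set_option maxHeartbeats 1000000 in
/-- **(E1), modular instance, positive form**: an `m`-torsion class killed by `alphaDown` whose
residue on the component `0` is a constant times an `m`-th power lies in the toric part. -/
theorem mem_torSub_setup_of_residue_zero_pow (Dt : ModularData M q B hB hqM) {m : ℕ}
    {x : JZero (M * q)} (hα : LevelTransfer.alphaDown M q x = 0)
    {D : Divisor.degZero (K := Kb) (F := Fb (M * q))} {f : Fb (M * q)}
    (hR : Filt.IsRep m x D f) {g : FtM} (hg : Filt.IsResidue (setup Dt) 0 f g)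
    (hpow : ∃ (u : FtM) (c : kB), g = algebraMap kB FtM c * u ^ m) :
    x ∈ Filt.torSub (setup Dt) m := by
  haveI := ResInst.charP_res q B hB
  exact mem_torSub_of_residue_zero_pow (input Dt).toSetup (constRedBar M hqM B hB)
    (riemannPkg_bar M) (heckeAlphaBar Kb M q) (heckeAlphaBarIntegral M q)
    (finiteAlong_heckeAlphaBar M q) (normFormulaAlong_alpha M q) (G5Modular.sigma0 M q B)
    (G5ModularFinal.nrAlpha_of_compW M q B hB hqM (input Dt) rfl) hR hg hα hpow

/-- **(E1)**, literal of the blueprint #1869 §1 (without the superfluous hypothesis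
`x ∈ natSub`): for a class outside the toric part and killed by `alphaDown`, no residue on the
component `0` is a constant times an `m`-th power. -/
theorem residue_zero_not_pow (Dt : ModularData M q B hB hqM) {m : ℕ} {x : JZero (M * q)}
    (hxt : x ∉ Filt.torSub (setup Dt) m) (hα : LevelTransfer.alphaDown M q x = 0)
    {D : Divisor.degZero (K := Kb) (F := Fb (M * q))} {f : Fb (M * q)}
    (hR : Filt.IsRep m x D f) {g : FtM} (hg : Filt.IsResidue (setup Dt) 0 f g) :
    ¬ ∃ (u : FtM) (c : kB), g = algebraMap kB FtM c * u ^ m :=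
  fun hpow => hxt (mem_torSub_setup_of_residue_zero_pow Dt hα hR hg hpow)

/-- **(E1)** with the exact binders of #1869 §1. -/
theorem residue_zero_not_pow' (Dt : ModularData M q B hB hqM) {m : ℕ} (hm : m ≠ 0)
    {x : JZero (M * q)} (hx : x ∈ Filt.natSub (setup Dt) m)
    (hxt : x ∉ Filt.torSub (setup Dt) m) (hα : LevelTransfer.alphaDown M q x = 0)
    {D : Divisor.degZero (K := Kb) (F := Fb (M * q))} {f : Fb (M * q)}
    (hR : Filt.IsRep m x D f) {g : FtM} (hg : Filt.IsResidue (setup Dt) 0 f g) :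
    ¬ ∃ (u : FtM) (c : kB), g = algebraMap kB FtM c * u ^ m :=
  residue_zero_not_pow Dt hxt hα hR hg

set_option maxHeartbeats 1000000 in
/-- **(E1), modular instance, from the component `1`** (with `betaDown`). -/
theorem mem_torSub_setup_of_residue_one_pow (Dt : ModularData M q B hB hqM) {m : ℕ}
    {x : JZero (M * q)} (hβ : BR2.LevelMaps.betaDown M q x = 0)
    {D : Divisor.degZero (K := Kb) (F := Fb (M * q))} {f : Fb (M * q)}
    (hR : Filt.IsRep m x D f) {g : FtM} (hg : Filt.IsResidue (setup Dt) 1 f g)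
    (hpow : ∃ (u : FtM) (c : kB), g = algebraMap kB FtM c * u ^ m) :
    x ∈ Filt.torSub (setup Dt) m := by
  haveI := ResInst.charP_res q B hB
  exact mem_torSub_of_residue_one_pow (input Dt).toSetup (constRedBar M hqM B hB)
    (riemannPkg_bar M) (heckeBetaBar Kb M q) (heckeBetaBarIntegral M q)
    (finiteAlong_heckeBetaBar M q) (normFormulaAlong_beta M q) (G5Modular.sigma0 M q B)
    (G5ModularFinal.nrBeta_of_compW M q B hB hqM (input Dt) rfl) hR hg hβ hpow

/-- for a class outside the toric part and killed by `betaDown`, no residue on the component `1`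
is a constant times an `m`-th power -/
theorem residue_one_not_pow (Dt : ModularData M q B hB hqM) {m : ℕ} {x : JZero (M * q)}
    (hxt : x ∉ Filt.torSub (setup Dt) m) (hβ : BR2.LevelMaps.betaDown M q x = 0)
    {D : Divisor.degZero (K := Kb) (F := Fb (M * q))} {f : Fb (M * q)}
    (hR : Filt.IsRep m x D f) {g : FtM} (hg : Filt.IsResidue (setup Dt) 1 f g) :
    ¬ ∃ (u : FtM) (c : kB), g = algebraMap kB FtM c * u ^ m :=
  fun hpow => hxt (mem_torSub_setup_of_residue_one_pow Dt hβ hR hg hpow)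

end Modular

end Fermat.Agent.FF4.Hecke2.ResidueZero
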