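import Mathlib
import Fermat.Agent.FF4.Hecke2.TwoLevel
import Fermat.Agent.BR2.SetupOfData

/-!
# PROGRAMME II, block D-HECKE2, leaf L1 (helper14), part 2: the two-level compatibility on the
semistable setups `setup Dt` (level `M * q`) and `setup Dt'` (level `M * ℓ * q`)

* `phiA_mem_setup_iff`, `res_setup_phiA`, `phiB_mem_setup_iff`, `res_setup_phiB` : `TwoLevel` in the
  literals `(setup Dt).O v`, `(setup Dt).res v`;
* `isResidue_phiA`, `isResidue_phiB` : a residue `g` of `f` on the component `v` gives the residue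
  `alphaC g` of `phiA f` (`betaC g` of `phiB f`) on the component `v` of the upper level;
* `isResidue_phiA_iff`, `isResidue_phiB_iff` : conversely every residue of `phiA f` (`phiB f`) on the
  component `v` of the upper level is of this form.
-/

set_option autoImplicit false
set_option linter.unusedSectionVars false
set_option linter.style.haveILetI false
set_option synthInstance.maxHeartbeats 400000

noncomputable section

namespace Fermat.Agent.FF4.Hecke2.TwoLevel

open ModularCurve AlgebraicCurve IsLocalRing Fermat.Agent.X0 Fermat.Agent.Val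
  Fermat.Agent.BR.TwoVal Fermat.Agent.Hecke.AL Fermat.Agent.BR.S0.RedModular
  Fermat.Agent.BR.ConstRedTwo Fermat.Agent.FF4.Hecke2 Fermat.Agent.BR.Final
  Fermat.Agent.BR2.SetupOfData Fermat.Agent.BR2.Filt Fermat.Agent.BR.SS

variable {M q ℓ : ℕ} [NeZero M] [hq : Fact q.Prime] [NeZero ℓ]
variable {B : ValuationSubring Kb} {hB : B.LiesOverPrime q} {hqM : ¬ q ∣ M}
  {hqMℓ : ¬ q ∣ M * ℓ}
variable [IsAlgClosed (ResidueField B)]

local notation "kB" => IsLocalRing.ResidueField B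

theorem phiA_smul (c : Kb) (f : Fb (M * q)) : phiA M q ℓ (c • f) = c • phiA M q ℓ f := by
  rw [Algebra.smul_def, Algebra.smul_def, map_mul, AlgHom.commutes]

theorem phiB_smul (c : Kb) (f : Fb (M * q)) : phiB M q ℓ (c • f) = c • phiB M q ℓ f := by
  rw [Algebra.smul_def, Algebra.smul_def, map_mul, AlgHom.commutes]

variable (Dt : ModularData M q B hB hqM) (Dt' : ModularData (M * ℓ) q B hB hqMℓ)

theorem phiA_mem_setup_iff (v : Fin 2) (x : Fb (M * q)) :
    phiA M q ℓ x ∈ (setup Dt').O v ↔ x ∈ (setup Dt).O v :=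
  phiA_mem_iff hqM hqMℓ B hB v x

theorem res_setup_phiA (v : Fin 2) {x : Fb (M * q)} (hx : x ∈ (setup Dt).O v)
    (hx' : phiA M q ℓ x ∈ (setup Dt').O v) :
    (setup Dt').res v ⟨phiA M q ℓ x, hx'⟩ = alphaC kB M ℓ ((setup Dt).res v ⟨x, hx⟩) :=
  res_phiA hqM hqMℓ B hB v hx hx'

theorem phiB_mem_setup_iff (v : Fin 2) (x : Fb (M * q)) :
    phiB M q ℓ x ∈ (setup Dt').O v ↔ x ∈ (setup Dt).O v :=
  phiB_mem_iff hqM hqMℓ B hB v x

theorem res_setup_phiB (v : Fin 2) {x : Fb (M * q)} (hx : x ∈ (setup Dt).O v)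
    (hx' : phiB M q ℓ x ∈ (setup Dt').O v) :
    (setup Dt').res v ⟨phiB M q ℓ x, hx'⟩ = betaC kB M ℓ ((setup Dt).res v ⟨x, hx⟩) :=
  res_phiB hqM hqMℓ B hB v hx hx'

/-- **residues go up along `α`** -/
theorem isResidue_phiA {v : Fin 2} {f : Fb (M * q)}
    {g : modularFunctionFieldFullC kB M} (h : IsResidue (setup Dt) v f g) :
    IsResidue (setup Dt') v (phiA M q ℓ f) (alphaC kB M ℓ g) := by
  obtain ⟨hg, c, hc, hm, hr⟩ := h
  refine ⟨fun h0 => hg ((alphaC kB M ℓ).injective (h0.trans (map_zero _).symm)), c, hc, ?_, ?_⟩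
  · rw [← phiA_smul]
    exact (phiA_mem_setup_iff Dt Dt' v _).2 hm
  · have e : (⟨c • phiA M q ℓ f, by
        rw [← phiA_smul]
        exact (phiA_mem_setup_iff Dt Dt' v _).2 hm⟩ : (setup Dt').O v) =
        ⟨phiA M q ℓ (c • f), (phiA_mem_setup_iff Dt Dt' v _).2 hm⟩ :=
      Subtype.ext (phiA_smul c f).symm
    rw [e, res_setup_phiA Dt Dt' v hm, hr]

/-- **residues go up along `β`** -/
theorem isResidue_phiB {v : Fin 2} {f : Fb (M * q)}
    {g : modularFunctionFieldFullC kB M} (h : IsResidue (setup Dt) v f g) :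
    IsResidue (setup Dt') v (phiB M q ℓ f) (betaC kB M ℓ g) := by
  obtain ⟨hg, c, hc, hm, hr⟩ := h
  refine ⟨fun h0 => hg ((betaC kB M ℓ).injective (h0.trans (map_zero _).symm)), c, hc, ?_, ?_⟩
  · rw [← phiB_smul]
    exact (phiB_mem_setup_iff Dt Dt' v _).2 hm
  · have e : (⟨c • phiB M q ℓ f, by
        rw [← phiB_smul]
        exact (phiB_mem_setup_iff Dt Dt' v _).2 hm⟩ : (setup Dt').O v) =
        ⟨phiB M q ℓ (c • f), (phiB_mem_setup_iff Dt Dt' v _).2 hm⟩ :=
      Subtype.ext (phiB_smul c f).symm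
    rw [e, res_setup_phiB Dt Dt' v hm, hr]

/-- every residue of `α f` on the upper level comes from a residue of `f` -/
theorem isResidue_phiA_iff {v : Fin 2} {f : Fb (M * q)}
    {g' : modularFunctionFieldFullC kB (M * ℓ)} :
    IsResidue (setup Dt') v (phiA M q ℓ f) g' ↔
      ∃ g : modularFunctionFieldFullC kB M, IsResidue (setup Dt) v f g ∧
        g' = alphaC kB M ℓ g := by
  refine ⟨fun h => ?_, ?_⟩
  · obtain ⟨hg, c, hc, hm, hr⟩ := h
    have hm' : phiA M q ℓ (c • f) ∈ (setup Dt').O v := by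
      rw [phiA_smul]
      exact hm
    have hm₀ : c • f ∈ (setup Dt).O v := (phiA_mem_setup_iff Dt Dt' v _).1 hm'
    have e : (⟨c • phiA M q ℓ f, hm⟩ : (setup Dt').O v) = ⟨phiA M q ℓ (c • f), hm'⟩ :=
      Subtype.ext (phiA_smul c f).symm
    rw [e, res_setup_phiA Dt Dt' v hm₀] at hr
    refine ⟨(setup Dt).res v ⟨c • f, hm₀⟩, ⟨?_, c, hc, hm₀, rfl⟩, hr.symm⟩
    intro h0
    rw [h0, map_zero] at hr
    exact hg hr.symm
  · rintro ⟨g, hg, rfl⟩
    exact isResidue_phiA Dt Dt' hg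

/-- every residue of `β f` on the upper level comes from a residue of `f` -/
theorem isResidue_phiB_iff {v : Fin 2} {f : Fb (M * q)}
    {g' : modularFunctionFieldFullC kB (M * ℓ)} :
    IsResidue (setup Dt') v (phiB M q ℓ f) g' ↔
      ∃ g : modularFunctionFieldFullC kB M, IsResidue (setup Dt) v f g ∧
        g' = betaC kB M ℓ g := by
  refine ⟨fun h => ?_, ?_⟩
  · obtain ⟨hg, c, hc, hm, hr⟩ := h
    have hm' : phiB M q ℓ (c • f) ∈ (setup Dt').O v := by
      rw [phiB_smul]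
      exact hm
    have hm₀ : c • f ∈ (setup Dt).O v := (phiB_mem_setup_iff Dt Dt' v _).1 hm'
    have e : (⟨c • phiB M q ℓ f, hm⟩ : (setup Dt').O v) = ⟨phiB M q ℓ (c • f), hm'⟩ :=
      Subtype.ext (phiB_smul c f).symm
    rw [e, res_setup_phiB Dt Dt' v hm₀] at hr
    refine ⟨(setup Dt).res v ⟨c • f, hm₀⟩, ⟨?_, c, hc, hm₀, rfl⟩, hr.symm⟩
    intro h0
    rw [h0, map_zero] at hr
    exact hg hr.symm
  · rintro ⟨g, hg, rfl⟩
    exact isResidue_phiB Dt Dt' hg

end Fermat.Agent.FF4.Hecke2.TwoLevel
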