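/-
Programme II, block D-HECKE2, leaf H6 (`CorrModM`), finding #1869: fibre-sum variant
(the canonical H6 file is `CorrModM.lean`, helper25; this file adds the fibre-sum form of the norm
formula, the place-level affineness hypothesis, the modular-equation adapter and norms of powers).

Pure `Place`/`ord` algebra over the Prelude's `Def_AlgebraicCurve_Correspondence`.

Setting: `K ⊂ F₁`, `K ⊂ F` fields, `φ ψ : F₁ →ₐ[K] F` (both integral, `φ` finite with the norm
formula), `x₁ : F₁` a coordinate such that `ψ x₁` has no pole where `φ x₁` has none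
(e.g. `ψ x₁` integral over `K[φ x₁]`).  A place `Q` of `F₁` is *affine* if `0 ≤ Q.ord x₁`.

* `ord_normAlong_eq_sum` : `ord_Q (Nm_φ z) = Σ_{W ∣ Q} ord_W z · f(W ∣ Q)`;
* `ord_apply_eq` : `ord_W (ψ y) = e_ψ(W) · ord_{W ∘ ψ} y`;
* `restrictAlong_affine` : `W ∘ ψ` is affine whenever `W ∘ φ` is;
* `dvd_ord_normAlong_of_affine` (**H6**): if `m ∣ ord_Q y` at all affine `Q`, then
  `m ∣ ord_Q (Nm_φ (ψ y))` at all affine `Q`;
* `ord_nonneg_of_isIntegral_adjoin` : the affineness hypothesis from integrality.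
-/
import Mathlib
import Fermat.Prelude.Def_AlgebraicCurve_Correspondence
import Fermat.Agent.Jac.CorrComm
import Fermat.Agent.X0.Alg.PlaceBasic

set_option autoImplicit false
set_option linter.style.haveILetI false

namespace Fermat.Agent.FF4.Hecke2.CorrModMFiber

open AlgebraicCurve Fermat.Agent.Jac

variable {K F₁ F : Type*} [Field K] [Field F₁] [Field F] [Algebra K F₁] [Algebra K F]

/-! ### Ramification indices are positive, restriction of orders -/

theorem ramificationIndexAlong_pos (ψ : F₁ →ₐ[K] F) (hψ : ψ.toRingHom.IsIntegral)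
    (W : Place K F) : 0 < Place.ramificationIndexAlong ψ W := by
  letI := algebraAlong ψ
  haveI := isScalarTower_along ψ
  haveI := isIntegral_along ψ hψ
  exact W.ramificationIndex_pos (F := F₁)

/-- `ord_W (ψ y) = e_ψ(W) · ord_{W ∘ ψ} y` (Prelude's `Place.ord_restrictAlong`). -/
theorem ord_apply_eq (ψ : F₁ →ₐ[K] F) (hψ : ψ.toRingHom.IsIntegral) (W : Place K F) (y : F₁) :
    W.ord (ψ y) = Place.ramificationIndexAlong ψ W * (W.restrictAlong ψ hψ).ord y :=
  Place.ord_restrictAlong ψ hψ W y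

/-- `0 ≤ ord_W (ψ y) ↔ 0 ≤ ord_{W ∘ ψ} y`. -/
theorem ord_apply_nonneg_iff (ψ : F₁ →ₐ[K] F) (hψ : ψ.toRingHom.IsIntegral) (W : Place K F)
    (y : F₁) : 0 ≤ W.ord (ψ y) ↔ 0 ≤ (W.restrictAlong ψ hψ).ord y := by
  rw [ord_apply_eq ψ hψ W y]
  have he : (0 : ℤ) < Place.ramificationIndexAlong ψ W := by
    exact_mod_cast ramificationIndexAlong_pos ψ hψ W
  constructor
  · intro h
    by_contra hneg
    push Not at hneg
    have := mul_neg_of_pos_of_neg he hneg
    omega
  · intro h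
    exact mul_nonneg he.le h

/-- Divisibility of orders is inherited by pull-backs. -/
theorem dvd_ord_apply (ψ : F₁ →ₐ[K] F) (hψ : ψ.toRingHom.IsIntegral) (W : Place K F)
    {y : F₁} {m : ℤ} (h : m ∣ (W.restrictAlong ψ hψ).ord y) : m ∣ W.ord (ψ y) := by
  rw [ord_apply_eq ψ hψ W y]
  exact Dvd.dvd.mul_left h _

/-! ### The norm formula as a sum over the fibre -/

section Norm

variable [HasPrincipalDivisors K F]

/-- **Norm formula**: `ord_Q (Nm_φ z) = Σ_{W ∣ Q} ord_W z · f(W ∣ Q)`. -/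
theorem ord_normAlong_eq_sum (φ : F₁ →ₐ[K] F) (hφ : φ.toRingHom.IsIntegral)
    (hfin : FiniteAlong K φ) (hN : NormFormulaAlong K φ hfin) {z : F} (hz : z ≠ 0)
    (Q : Place K F₁) :
    Q.ord (normAlong φ z) =
      ∑ W ∈ Place.fiberAlong φ hφ Q, W.ord z * (W.inertiaDegAlong φ hφ : ℤ) := by
  classical
  obtain ⟨D, hD, -⟩ := HasPrincipalDivisors.exists_divisor (K := K) z hz
  have key : Q.ord (normAlong φ z) =
      ∑ W ∈ D.support, if W.restrictAlong φ hφ = Q then
        W.ord z * (W.inertiaDegAlong φ hφ : ℤ) else 0 := by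
    letI := algebraAlong φ
    haveI := isScalarTower_along φ
    haveI := isIntegral_along φ hφ
    haveI : Module.Finite F₁ F := hfin
    have h1 : Divisor.pushforward F₁ D Q = Q.ord (Algebra.norm F₁ z) := hN z hz D hD Q
    show Q.ord (Algebra.norm F₁ z) = _
    rw [← h1, Divisor.pushforward_apply]
    refine Finset.sum_congr rfl fun W _ => ?_
    rw [hD W]
    rfl
  rw [key, ← Finset.sum_filter]
  refine Finset.sum_subset ?_ ?_
  · intro W hW
    rw [Finset.mem_filter] at hW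
    exact Place.mem_fiberAlong.mpr hW.2
  · intro W hW hnot
    have hres : W.restrictAlong φ hφ = Q := Place.mem_fiberAlong.mp hW
    have hsupp : W ∉ D.support := fun h => hnot (Finset.mem_filter.mpr ⟨h, hres⟩)
    rw [Finsupp.notMem_support_iff, hD W] at hsupp
    rw [hsupp, zero_mul]

/-- If `m` divides the order of `z` at every place above `Q`, it divides `ord_Q (Nm_φ z)`. -/
theorem dvd_ord_normAlong (φ : F₁ →ₐ[K] F) (hφ : φ.toRingHom.IsIntegral)
    (hfin : FiniteAlong K φ) (hN : NormFormulaAlong K φ hfin) {z : F} (hz : z ≠ 0)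
    (Q : Place K F₁) {m : ℤ}
    (h : ∀ W : Place K F, W.restrictAlong φ hφ = Q → m ∣ W.ord z) :
    m ∣ Q.ord (normAlong φ z) := by
  rw [ord_normAlong_eq_sum φ hφ hfin hN hz Q]
  refine Finset.dvd_sum fun W hW => ?_
  exact Dvd.dvd.mul_right (h W (Place.mem_fiberAlong.mp hW)) _

end Norm

/-! ### Affine places -/

/-- If `ψ x₁` has no pole where `φ x₁` has none, then `W ∘ ψ` is affine whenever `W ∘ φ` is. -/
theorem restrictAlong_affine (φ ψ : F₁ →ₐ[K] F) (hφ : φ.toRingHom.IsIntegral)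
    (hψ : ψ.toRingHom.IsIntegral) (x₁ : F₁)
    (haff : ∀ W : Place K F, 0 ≤ W.ord (φ x₁) → 0 ≤ W.ord (ψ x₁)) (W : Place K F)
    (hW : 0 ≤ (W.restrictAlong φ hφ).ord x₁) : 0 ≤ (W.restrictAlong ψ hψ).ord x₁ :=
  (ord_apply_nonneg_iff ψ hψ W x₁).mp (haff W ((ord_apply_nonneg_iff φ hφ W x₁).mpr hW))

/-- **H6 (`CorrModM`).** Let `φ ψ : F₁ → F` be a correspondence (`φ` finite with the norm
formula, `ψ` integral) and `x₁ : F₁` a coordinate such that `ψ x₁` has no pole where `φ x₁` has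
none.  If `m` divides the order of `y` at every affine place (`0 ≤ ord x₁`) of `F₁`, then `m`
divides the order of `Nm_φ (ψ y)` at every affine place of `F₁`. -/
theorem dvd_ord_normAlong_of_affine [HasPrincipalDivisors K F] (φ ψ : F₁ →ₐ[K] F)
    (hφ : φ.toRingHom.IsIntegral) (hψ : ψ.toRingHom.IsIntegral)
    (hfin : FiniteAlong K φ) (hN : NormFormulaAlong K φ hfin) (x₁ : F₁)
    (haff : ∀ W : Place K F, 0 ≤ W.ord (φ x₁) → 0 ≤ W.ord (ψ x₁)) {m : ℤ} {y : F₁}
    (hy : y ≠ 0) (hdiv : ∀ Q : Place K F₁, 0 ≤ Q.ord x₁ → m ∣ Q.ord y)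
    (Q : Place K F₁) (hQ : 0 ≤ Q.ord x₁) : m ∣ Q.ord (normAlong φ (ψ y)) := by
  refine dvd_ord_normAlong φ hφ hfin hN ((map_ne_zero ψ).mpr hy) Q fun W hW => ?_
  refine dvd_ord_apply ψ hψ W (hdiv _ ?_)
  exact restrictAlong_affine φ ψ hφ hψ x₁ haff W (hW ▸ hQ)

/-! ### Norms of powers -/

theorem normAlong_one' (φ : F₁ →ₐ[K] F) : normAlong φ (1 : F) = 1 := by
  letI := algebraAlong φ
  exact map_one (Algebra.norm F₁)

theorem normAlong_npow (φ : F₁ →ₐ[K] F) (z : F) (n : ℕ) :
    normAlong φ (z ^ n) = normAlong φ z ^ n := by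
  letI := algebraAlong φ
  exact map_pow (Algebra.norm F₁) z n

theorem normAlong_inv' (φ : F₁ →ₐ[K] F) (hfin : FiniteAlong K φ) (z : F) :
    normAlong φ z⁻¹ = (normAlong φ z)⁻¹ := by
  rcases eq_or_ne z 0 with rfl | hz
  · letI := algebraAlong φ
    haveI : Module.Finite F₁ F := hfin
    have h0 : normAlong φ (0 : F) = 0 := Algebra.norm_zero
    rw [inv_zero, h0, inv_zero]
  · have h := normAlong_mul φ z z⁻¹
    rw [mul_inv_cancel₀ hz, normAlong_one'] at h
    exact eq_inv_of_mul_eq_one_right h.symm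

theorem normAlong_zpow' (φ : F₁ →ₐ[K] F) (hfin : FiniteAlong K φ) (z : F) (n : ℤ) :
    normAlong φ (z ^ n) = normAlong φ z ^ n := by
  cases n with
  | ofNat n => simpa using normAlong_npow φ z n
  | negSucc n =>
    rw [zpow_negSucc, zpow_negSucc, normAlong_inv' φ hfin, normAlong_npow]

/-! ### The affineness hypothesis from integrality -/

/-- Valuation rings are integrally closed: an element integral over `K[a]` has no pole where
`a` has none. -/
theorem ord_nonneg_of_isIntegral_adjoin (W : Place K F) {a b : F}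
    (hint : IsIntegral (Algebra.adjoin K {a}) b) (ha : 0 ≤ W.ord a) : 0 ≤ W.ord b := by
  rw [← Fermat.Agent.X0.Place.mem_iff_ord_nonneg] at ha ⊢
  -- `K[a] ⊆ O_W`
  have hle : ∀ x ∈ Algebra.adjoin K {a}, x ∈ W.toValuationSubring := by
    intro x hx
    induction hx using Algebra.adjoin_induction with
    | mem x hx =>
      rw [Set.mem_singleton_iff] at hx
      exact hx ▸ ha
    | algebraMap r => exact W.algebraMap_mem' r
    | add x y _ _ hx hy => exact add_mem hx hy
    | mul x y _ _ hx hy => exact mul_mem hx hy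
  let ι : Algebra.adjoin K {a} →+* W.toValuationSubring :=
    { toFun := fun x => ⟨x.1, hle x.1 x.2⟩
      map_one' := rfl
      map_mul' := fun _ _ => rfl
      map_zero' := rfl
      map_add' := fun _ _ => rfl }
  have hb : IsIntegral W.toValuationSubring b := by
    have := IsIntegral.map_of_comp_eq ι (RingHom.id F) (by ext x; rfl) hint
    simpa using this
  obtain ⟨y, hy⟩ := IsIntegrallyClosed.isIntegral_iff.mp hb
  rw [← hy]
  exact y.2

/-- The same with a monic polynomial relation with coefficients in `K[a]`. -/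
theorem ord_nonneg_of_monic_relation (W : Place K F) {a b : F} (p : Polynomial (Polynomial K))
    (hp : p.Monic)
    (hroot : Polynomial.eval₂ ((Polynomial.aeval a : Polynomial K →ₐ[K] F) : Polynomial K →+* F)
      b p = 0) (ha : 0 ≤ W.ord a) : 0 ≤ W.ord b := by
  refine ord_nonneg_of_isIntegral_adjoin W ?_ ha
  -- `p` mapped to `K[a][X]`
  let ev : Polynomial K →+* Algebra.adjoin K {a} :=
    ((Polynomial.aeval (⟨a, Algebra.subset_adjoin (Set.mem_singleton a)⟩ :
      Algebra.adjoin K {a})) : Polynomial K →ₐ[K] Algebra.adjoin K {a})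
  refine ⟨p.map ev, hp.map ev, ?_⟩
  rw [Polynomial.eval₂_map]
  have : (algebraMap (Algebra.adjoin K {a}) F).comp ev
      = ((Polynomial.aeval a : Polynomial K →ₐ[K] F) : Polynomial K →+* F) := by
    refine Polynomial.ringHom_ext (fun r => ?_) ?_
    · simp [ev]
    · simp [ev]
  rw [this]
  exact hroot

/-- H6 with the affineness hypothesis in its integrality form: `ψ x₁` integral over
`K[φ x₁]`. -/
theorem dvd_ord_normAlong_of_isIntegral [HasPrincipalDivisors K F] (φ ψ : F₁ →ₐ[K] F)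
    (hφ : φ.toRingHom.IsIntegral) (hψ : ψ.toRingHom.IsIntegral)
    (hfin : FiniteAlong K φ) (hN : NormFormulaAlong K φ hfin) (x₁ : F₁)
    (hint : IsIntegral (Algebra.adjoin K {φ x₁}) (ψ x₁)) {m : ℤ} {y : F₁}
    (hy : y ≠ 0) (hdiv : ∀ Q : Place K F₁, 0 ≤ Q.ord x₁ → m ∣ Q.ord y)
    (Q : Place K F₁) (hQ : 0 ≤ Q.ord x₁) : m ∣ Q.ord (normAlong φ (ψ y)) :=
  dvd_ord_normAlong_of_affine φ ψ hφ hψ hfin hN x₁
    (fun W hW => ord_nonneg_of_isIntegral_adjoin W hint hW) hy hdiv Q hQ

/-! ### Descent of divisibility along a pull-back (toolkit of K6 (3)) -/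

section Descent

variable [HasPrincipalDivisors K F]

/-- The fundamental identity along `φ`: `Σ_{W ∣ Q} e(W ∣ Q) · deg W = [F : φ F₁] · deg Q`. -/
theorem sum_ramificationIndexAlong_mul_deg (φ : F₁ →ₐ[K] F) (hφ : φ.toRingHom.IsIntegral)
    (hFI : FundamentalIdentityAlong K φ hφ) (Q : Place K F₁) :
    ∑ W ∈ Place.fiberAlong φ hφ Q, (Place.ramificationIndexAlong φ W : ℤ) * (W.deg : ℤ)
      = (finrankAlong K φ : ℤ) * (Q.deg : ℤ) := by
  letI := algebraAlong φ
  haveI := isScalarTower_along φ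
  haveI := isIntegral_along φ hφ
  haveI : FundamentalIdentity K F₁ F := hFI
  exact FundamentalIdentity.sum_ramificationIndex_mul_deg (K := K) (F := F₁) (F' := F) Q

/-- `Σ_{W ∣ Q} ord_W (φ f) · deg W = [F : φ F₁] · deg Q · ord_Q f`. -/
theorem sum_ord_apply_mul_deg (φ : F₁ →ₐ[K] F) (hφ : φ.toRingHom.IsIntegral)
    (hFI : FundamentalIdentityAlong K φ hφ) (Q : Place K F₁) (f : F₁) :
    ∑ W ∈ Place.fiberAlong φ hφ Q, W.ord (φ f) * (W.deg : ℤ)
      = (finrankAlong K φ : ℤ) * (Q.deg : ℤ) * Q.ord f := by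
  rw [← sum_ramificationIndexAlong_mul_deg φ hφ hFI Q, Finset.sum_mul]
  refine Finset.sum_congr rfl fun W hW => ?_
  rw [ord_apply_eq φ hφ W f, Place.mem_fiberAlong.mp hW]
  ring

/-- **Descent (K6 (3)).** If `m` divides the order of `φ f` at every place above `Q` and `m` is
prime to `[F : φ F₁] · deg Q`, then `m` divides `ord_Q f`. -/
theorem dvd_ord_of_forall_dvd_ord_apply (φ : F₁ →ₐ[K] F) (hφ : φ.toRingHom.IsIntegral)
    (hFI : FundamentalIdentityAlong K φ hφ) (Q : Place K F₁) {m : ℤ}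
    (hcop : IsCoprime m ((finrankAlong K φ : ℤ) * (Q.deg : ℤ))) {f : F₁}
    (h : ∀ W : Place K F, W.restrictAlong φ hφ = Q → m ∣ W.ord (φ f)) : m ∣ Q.ord f := by
  have hsum : m ∣ (finrankAlong K φ : ℤ) * (Q.deg : ℤ) * Q.ord f := by
    rw [← sum_ord_apply_mul_deg φ hφ hFI Q f]
    exact Finset.dvd_sum fun W hW => Dvd.dvd.mul_right (h W (Place.mem_fiberAlong.mp hW)) _
  exact hcop.dvd_of_dvd_mul_left hsum

/-- The same for a place of degree one (e.g. over an algebraically closed constant field) and a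
prime `p` not dividing the degree of `φ`. -/
theorem dvd_ord_of_forall_dvd_ord_apply_of_prime (φ : F₁ →ₐ[K] F)
    (hφ : φ.toRingHom.IsIntegral) (hFI : FundamentalIdentityAlong K φ hφ) (Q : Place K F₁)
    (hQ : Q.deg = 1) {p : ℕ} (hp : p.Prime) (hpn : ¬ p ∣ finrankAlong K φ) {f : F₁}
    (h : ∀ W : Place K F, W.restrictAlong φ hφ = Q → (p : ℤ) ∣ W.ord (φ f)) :
    (p : ℤ) ∣ Q.ord f := by
  refine dvd_ord_of_forall_dvd_ord_apply φ hφ hFI Q ?_ h
  rw [hQ, Nat.cast_one, mul_one]
  exact Nat.isCoprime_iff_coprime.mpr ((Nat.Prime.coprime_iff_not_dvd hp).mpr hpn)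

end Descent

end Fermat.Agent.FF4.Hecke2.CorrModMFiber
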