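/-
PROGRAMME II (S40/S44), block A3a D-HECKE2, leaf H0 (blueprint #1869): the degeneracy map
`ᾱ = alphaC k M ℓ : F̃_M → F̃_{Mℓ}` over the residue field `k` of a valuation ring `B ⊂ ℚ̄` over `q`
(`q ∤ M ℓ`, `ℓ ∤ M` prime) is finite separable of degree `ℓ + 1`, satisfies the norm formula, and
`β̄ j̃` is integral over `k[ᾱ j̃]` ("cusps go to cusps").
-/
import Mathlib
import Fermat.Agent.FF4.Hecke2.Defs
import Fermat.Agent.Val.FinrankModL
import Fermat.Agent.Val.ModEqAnyField
import Fermat.Agent.Hecke.HeckeInputs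
import Fermat.Agent.Hecke.HeckeDegrees

set_option autoImplicit false
set_option linter.unusedSectionVars false
set_option linter.style.haveILetI false

noncomputable section

set_option synthInstance.maxHeartbeats 400000
set_option maxHeartbeats 1000000

namespace Fermat.Agent.FF4.Hecke2.DegC

open AlgebraicCurve ModularCurve IntermediateField IsLocalRing Polynomial
  Fermat.Agent.FF Fermat.Agent.Val Fermat.Agent.Hecke Fermat.Agent.Hecke.Deg Fermat.Agent.X0
  Fermat.Agent.Igusa

/-! ### a generic integrality lemma at a place -/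

section Generic

variable {K F : Type*} [Field K] [Field F] [Algebra K F]

/-- a root of a monic polynomial with coefficients regular at `v` is regular at `v` -/
theorem ord_nonneg_of_monic_root_of_mem (v : Place K F) (p : F[X]) (hpm : p.Monic) {f : F}
    (hroot : p.eval f = 0) (hcoeff : ∀ i, p.coeff i ∈ v.toValuationSubring) : 0 ≤ v.ord f := by
  rw [← Place.mem_iff_ord_nonneg]
  have hsub : (↑p.coeffs : Set F) ⊆ ↑v.toValuationSubring.toSubring := by
    intro c hc
    rw [Finset.mem_coe, Polynomial.mem_coeffs_iff] at hc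
    obtain ⟨n, _, rfl⟩ := hc
    exact hcoeff n
  have hroot' : Polynomial.eval₂ (algebraMap v.toValuationSubring F) f
      (p.toSubring v.toValuationSubring.toSubring hsub) = 0 := by
    have h1 : (p.toSubring v.toValuationSubring.toSubring hsub).map
        (algebraMap v.toValuationSubring F) = p := Polynomial.map_toSubring p _ hsub
    rw [← Polynomial.eval_map, h1, hroot]
  have hint' : IsIntegral v.toValuationSubring f :=
    ⟨p.toSubring v.toValuationSubring.toSubring hsub,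
      (Polynomial.monic_toSubring p _ hsub).mpr hpm, hroot'⟩
  obtain ⟨a, ha⟩ := IsIntegrallyClosed.algebraMap_eq_of_integral hint'
  rw [← ha]
  exact a.2

end Generic

section Sep

variable {K F₁ F : Type*} [Field K] [Field F₁] [Field F] [Algebra K F₁] [Algebra K F]

/-- separability along `φ` from a separating variable coming from the source -/
theorem isSeparable_along_of_sepVar (φ : F₁ →ₐ[K] F) (x : F₁)
    [Algebra.IsSeparable K⟮φ x⟯ F] :
    letI := algebraAlong φ
    Algebra.IsSeparable F₁ F := by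
  letI := algebraAlong φ
  refine ⟨fun y => ?_⟩
  have hy : IsSeparable K⟮φ x⟯ y := Algebra.IsSeparable.isSeparable _ y
  set p := minpoly K⟮φ x⟯ y with hp
  have hps : p.Separable := hy
  let e := adjoinSimpleEquiv φ x
  let g : K⟮φ x⟯ →+* F₁ := (algebraMap K⟮x⟯ F₁).comp (e.symm : K⟮φ x⟯ →+* K⟮x⟯)
  have hg : ∀ z : K⟮φ x⟯, φ (g z) = (z : F) := by
    intro z
    have h1 := coe_adjoinSimpleEquiv φ x (e.symm z)
    rw [AlgEquiv.apply_symm_apply] at h1
    exact h1.symm
  have h2 : (p.map g).Separable := hps.map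
  have h3 : Polynomial.aeval y (p.map g) = 0 := by
    rw [Polynomial.aeval_def, Polynomial.eval₂_map]
    have h4 : (algebraMap F₁ F).comp g = algebraMap K⟮φ x⟯ F := by
      ext z
      exact hg z
    rw [h4, ← Polynomial.aeval_def, hp, minpoly.aeval]
  exact h2.of_dvd (minpoly.dvd F₁ y h3)

end Sep

/-! ### the degeneracy map `ᾱ` over the residue field -/

section Modular

variable (M : ℕ) [NeZero M] {q : ℕ} [hq : Fact q.Prime] (ℓ : ℕ) [hℓ : Fact ℓ.Prime]
  (B : ValuationSubring (AlgebraicClosure ℚ)) (hB : B.LiesOverPrime q)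
  (hqM : ¬ q ∣ M) (hqMℓ : ¬ q ∣ M * ℓ) (hℓM : ¬ ℓ ∣ M)

local instance neZero_ell : NeZero ℓ := ⟨hℓ.out.ne_zero⟩

local instance neZero_Mell : NeZero (M * ℓ) := ⟨Nat.mul_ne_zero (NeZero.ne M) hℓ.out.ne_zero⟩

local notation "kB" => ResidueField B

theorem alphaC_jFullC : alphaC kB M ℓ (jFullC kB M) = jFullC kB (M * ℓ) :=
  Subtype.ext (by rw [coe_alphaC]; rfl)

include hB hqM hqMℓ in
/-- `ᾱ` is finite -/
theorem finiteAlong_alphaC : FiniteAlong kB (alphaC kB M ℓ) := by
  haveI := (isSepVarS_jFullC_residueField (M * ℓ) hqMℓ B hB).finite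
  exact finiteAlong_of_transcendental (alphaC kB M ℓ) (jFullC kB (M * ℓ))
    (isSepVarS_jFullC_residueField M hqM B hB).transcendental

include hB hqM hqMℓ in
/-- `β̄` is finite -/
theorem finiteAlong_betaC : FiniteAlong kB (betaC kB M ℓ) := by
  haveI := (isSepVarS_jFullC_residueField (M * ℓ) hqMℓ B hB).finite
  exact finiteAlong_of_transcendental (betaC kB M ℓ) (jFullC kB (M * ℓ))
    (isSepVarS_jFullC_residueField M hqM B hB).transcendental

include hB hqM hqMℓ in
theorem alphaC_isIntegral : (alphaC kB M ℓ).toRingHom.IsIntegral :=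
  isIntegral_of_finiteAlong _ (finiteAlong_alphaC M ℓ B hB hqM hqMℓ)

include hB hqM hqMℓ in
theorem betaC_isIntegral : (betaC kB M ℓ).toRingHom.IsIntegral :=
  isIntegral_of_finiteAlong _ (finiteAlong_betaC M ℓ B hB hqM hqMℓ)

include hB hqM hqMℓ hℓM in
/-- **`[F̃_{Mℓ} : ᾱ F̃_M] = ℓ + 1`** -/
theorem finrankAlong_alphaC : finrankAlong kB (alphaC kB M ℓ) = ℓ + 1 := by
  have h1 := finrank_mul_finrankAlong (alphaC kB M ℓ) (jFullC kB M)
  rw [alphaC_jFullC, (isSepVarS_jFullC_residueField M hqM B hB).finrank_eq,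
    (isSepVarS_jFullC_residueField (M * ℓ) hqMℓ B hB).finrank_eq,
    dedekindPsi_mul_prime M hℓ.out hℓM] at h1
  exact Nat.eq_of_mul_eq_mul_left (Fermat.Agent.Hecke.Deg.dedekindPsi_pos M) h1

include hB hqMℓ in
/-- `F̃_{Mℓ} / ᾱ F̃_M` is separable -/
theorem isSeparable_alphaC :
    letI := algebraAlong (alphaC kB M ℓ)
    Algebra.IsSeparable ↥(modularFunctionFieldFullC kB M)
      ↥(modularFunctionFieldFullC kB (M * ℓ)) := by
  haveI hsep' : Algebra.IsSeparable kB⟮alphaC kB M ℓ (jFullC kB M)⟯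
      ↥(modularFunctionFieldFullC kB (M * ℓ)) := by
    rw [alphaC_jFullC]
    exact (isSepVarS_jFullC_residueField (M * ℓ) hqMℓ B hB).separable
  exact isSeparable_along_of_sepVar (alphaC kB M ℓ) (jFullC kB M)

include hB hqM hqMℓ in
/-- the norm formula along `ᾱ` -/
theorem normFormulaAlong_alphaC :
    NormFormulaAlong kB (alphaC kB M ℓ) (finiteAlong_alphaC M ℓ B hB hqM hqMℓ) :=
  normFormulaAlong_of_finite _ _ (isSeparable_alphaC M ℓ B hB hqMℓ)

/-! ### cusps go to cusps: `β̄ j̃` is integral over `k[ᾱ j̃]` -/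

/-- The step of the tower with monicity recorded (twin of `Val.exists_separable_step`):
`j(q^(p d'))` is a root of the MONIC polynomial `Φ_p(X, j(q^d'))`. -/
theorem exists_monic_step {k : Type*} [Field k] {N : ℕ} [NeZero N]
    (hdata : ∀ p (hp : p.Prime), p ∣ N → ∃ (ζ : kˣ) (pinv : k),
      IsPrimitiveRoot ζ p ∧ Nonempty (@ModEqData k _ p ⟨hp.ne_zero⟩ ζ pinv))
    (p d' : ℕ) (hp : p.Prime) (hpd : p * d' ∣ N) :
    ∃ Φ : k[X][X], Φ.Monic ∧
      (evInner (genFull k N d') Φ).eval (genFull k N (p * d')) = 0 := by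
  have hN : N ≠ 0 := NeZero.ne N
  have hpN : p ∣ N := Dvd.dvd.trans ⟨d', rfl⟩ hpd
  have hd'N : d' ∣ N := Dvd.dvd.trans ⟨p, mul_comm p d'⟩ hpd
  haveI : NeZero p := ⟨hp.ne_zero⟩
  haveI : NeZero d' := ⟨ne_zero_of_dvd_ne_zero hN hd'N⟩
  haveI : NeZero (p * d') := ⟨ne_zero_of_dvd_ne_zero hN hpd⟩
  obtain ⟨ζ, pinv, hζ, ⟨dat⟩⟩ := hdata p hp hpN
  obtain ⟨N', hN'⟩ := hpN
  have hN'0 : N' ≠ 0 := fun h => hN (by rw [hN', h, mul_zero])
  set n : ℕ := N' * d' with hn
  haveI : NeZero n := ⟨Nat.mul_ne_zero hN'0 (NeZero.ne d')⟩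
  have e1 : N * d' = n * p := by rw [hN', hn]; ring
  have e2 : N * (p * d') = n * (p * p) := by rw [hN', hn]; ring
  haveI : NeZero (n * p) := ⟨Nat.mul_ne_zero (NeZero.ne n) hp.ne_zero⟩
  haveI : NeZero (n * (p * p)) :=
    ⟨Nat.mul_ne_zero (NeZero.ne n) (Nat.mul_ne_zero hp.ne_zero hp.ne_zero)⟩
  haveI : NeZero (N * d') := ⟨e1 ▸ NeZero.ne (n * p)⟩
  haveI : NeZero (N * (p * d')) := ⟨e2 ▸ NeZero.ne (n * (p * p))⟩
  have hmap : (evInner (genFull k N d') dat.Phi).map (modelHom k N).toRingHom =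
      (X - C (J (1 : kˣ) (n * (p * p)))) *
        ∏ b ∈ Finset.range p, (X - C (J (ζ ^ b * 1) n)) := by
    rw [evInner_map, modelHom_genFull hd'N, evInner_eq_evY, J_congr 1 e1]
    have h := dat.me1_subst (1 : kˣ) n
    rw [one_pow, one_pow] at h
    exact h
  refine ⟨dat.Phi, dat.Phi_monic, ?_⟩
  apply modelHom_injective
  rw [map_zero]
  have h1 : modelHom k N ((evInner (genFull k N d') dat.Phi).eval (genFull k N (p * d'))) =
      ((evInner (genFull k N d') dat.Phi).map (modelHom k N).toRingHom).eval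
        (modelHom k N (genFull k N (p * d'))) := by
    rw [Polynomial.eval_map]
    exact (Polynomial.eval₂_hom (modelHom k N).toRingHom (genFull k N (p * d'))).symm
  rw [h1, hmap, modelHom_genFull hpd, J_congr 1 e2, Polynomial.eval_mul, Polynomial.eval_sub,
    Polynomial.eval_X, Polynomial.eval_C, sub_self, zero_mul]

theorem betaC_jFullC_eq_genFull :
    betaC kB M ℓ (jFullC kB M) = genFull kB (M * ℓ) ℓ := by
  apply Subtype.ext
  rw [coe_betaC, coe_genFull (dvd_mul_left ℓ M)]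
  show qExpand kB ℓ (jqModC kB) = J (1 : kBˣ) ℓ
  rw [← J_one_one, qExpand_J]
  exact J_congr 1 (mul_one ℓ)

include hB hqMℓ in
/-- **cusps go to cusps**: at a place of `F̃_{Mℓ}` where `ᾱ j̃` is regular, `β̄ j̃` is regular. -/
theorem ord_betaC_jFullC_nonneg (Q : Place kB ↥(modularFunctionFieldFullC kB (M * ℓ)))
    (hQ : 0 ≤ Q.ord (alphaC kB M ℓ (jFullC kB M))) :
    0 ≤ Q.ord (betaC kB M ℓ (jFullC kB M)) := by
  haveI : CharP kB q := charP_residueField_of_liesOverPrime B hB
  haveI : IsAlgClosed kB := residueField_isAlgClosed B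
  obtain ⟨Φ, hΦm, hroot⟩ := exists_monic_step (k := kB) (N := M * ℓ)
    (exists_modEqData_of_isAlgClosed hq.out hqMℓ kB) ℓ 1 hℓ.out (by rw [mul_one]; exact dvd_mul_left ℓ M)
  rw [mul_one, genFull_one, ← betaC_jFullC_eq_genFull, ← alphaC_jFullC] at hroot
  refine ord_nonneg_of_monic_root_of_mem Q _ (hΦm.map _) hroot fun i => ?_
  show (Polynomial.map _ Φ).coeff i ∈ Q.toValuationSubring
  rw [Polynomial.coeff_map]
  -- a polynomial in `ᾱ j̃` is regular at `Q`
  have hmem : alphaC kB M ℓ (jFullC kB M) ∈ Q.toValuationSubring :=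
    (Place.mem_iff_ord_nonneg Q).mpr hQ
  show Polynomial.aeval (alphaC kB M ℓ (jFullC kB M)) (Φ.coeff i) ∈ Q.toValuationSubring
  rw [Polynomial.aeval_def, Polynomial.eval₂_eq_sum_range]
  refine Subring.sum_mem _ fun n _ => ?_
  exact Subring.mul_mem _ (Q.algebraMap_mem' _) (Subring.pow_mem _ hmem n)

end Modular

end Fermat.Agent.FF4.Hecke2.DegC
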