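/-
PROGRAMME II (S40/S44), block A3a D-HECKE2, leaf H3 (blueprint #1869): the modular unit
`T = Δ(s)/Δ(s^q)` is a multiplicative `T_ℓ`-eigenfunction:

  `Nm_α (β T) = T ^ (ℓ + 1)`   in `Fb (M * q)`,   `ℓ ∤ M q` prime.

* `delta_prod_Kb`    : `Δ(s^{ℓ²}) ∏_{b<ℓ} Δ(ζ^b s) = ε · Δ(s^ℓ)^{ℓ+1}` in `ℚ̄((s))`, any primitive `ζ`
                       (transported from the landed `ModUnit.uInfS_mul_prod_vFin` over the
                       algebraic integers of `ℂ`);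
* `TK_prod_Kb`       : the same for `T` (the constant cancels);
* `normAlpha_beta_TB`: the norm identity, from the landed `ES.productFormula`.
-/
import Mathlib
import Fermat.Agent.BR.ModUnitInt
import Fermat.Agent.BR.ModUnitField
import Fermat.Agent.ES.ProductFormula

set_option autoImplicit false
set_option linter.unusedSectionVars false
set_option linter.style.haveILetI false

noncomputable section

namespace Fermat.Agent.FF4.Hecke2.DeltaNorm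

open ModularCurve HahnSeries Fermat.Agent.Igusa Fermat.Agent.X0 Fermat.Agent.BR.ModUnit
  Fermat.Agent.ES Fermat.Agent.Hecke

/-! ### from the algebraic integers of `ℂ` to `ℚ̄` -/

theorem OC_le_algNumSubring : OC ≤ algNumSubring := by
  intro z hz
  rw [mem_algNumSubring_iff]
  have h1 : IsIntegral ℤ z := mem_OC_iff.mp hz
  exact (h1.tower_top (A := ℚ)).isAlgebraic

/-- the embedding of the algebraic integers of `ℂ` into `ℚ̄` -/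
def ocToKb : OC →+* Kb := algNumToKb.comp (Subring.inclusion OC_le_algNumSubring)

variable (ℓ : ℕ) [hℓ : Fact ℓ.Prime]

local instance neZero_ell : NeZero ℓ := ⟨hℓ.out.ne_zero⟩

/-- the image of `ζ_ℓ` in `ℚ̄` -/
def zetaKb : Kbˣ := Units.map (ocToKb : OC →* Kb) (zetaO ℓ)

theorem isPrimitiveRoot_zetaKb : IsPrimitiveRoot (zetaKb ℓ) ℓ :=
  isPrimitiveRoot_unitsMap_of_prime ocToKb hℓ.out (Nat.cast_ne_zero.mpr hℓ.out.ne_zero)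
    (isPrimitiveRoot_zetaA ℓ _)

/-- the constant `ε = ∏ ζ^b` in `ℚ̄` -/
def epsKb : Kbˣ := Units.map (ocToKb : OC →* Kb) (epsO ℓ)

/-- the landed product formula for `Δ`, transported to `ℚ̄`, for the root `zetaKb` -/
theorem uInfS_mul_prod_vFin_Kb :
    uInfS Kb ℓ * ∏ b ∈ Finset.range ℓ, vFin ℓ (zetaKb ℓ) b =
      HahnSeries.C ((epsKb ℓ : Kbˣ) : Kb) := by
  have h := congrArg (coeffMap ocToKb) (uInfS_mul_prod_vFin ℓ)
  rw [map_mul, coeffMap_uInfS, map_prod, coeffMap_HC] at h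
  have h2 : (HahnSeries.C ((epsKb ℓ : Kbˣ) : Kb) : LaurentSeries Kb) =
      HahnSeries.C (ocToKb ((epsO ℓ : OCˣ) : OC)) := rfl
  rw [h2, ← h]
  congr 1
  refine Finset.prod_congr rfl fun b _ => ?_
  rw [coeffMap_vFin]
  rfl


theorem qExpand_DeltaC_mul_inv (m : ℕ) [NeZero m] :
    qExpand Kb m (DeltaC Kb) * qExpand Kb m (DeltaInvC Kb) = 1 := by
  rw [← map_mul, DeltaC_mul_DeltaInvC, map_one]

/-- the product `Δ(s^{ℓ²}) ∏_b Δ(ζ^b s)` -/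
def prodD (ζ : Kbˣ) : LaurentSeries Kb :=
  qExpand Kb (ℓ * ℓ) (DeltaC Kb) * ∏ b ∈ Finset.range ℓ, scale (ζ ^ b) (DeltaC Kb)

/-- the product `Δ⁻¹(s^{ℓ²}) ∏_b Δ⁻¹(ζ^b s)` -/
def prodDinv (ζ : Kbˣ) : LaurentSeries Kb :=
  qExpand Kb (ℓ * ℓ) (DeltaInvC Kb) * ∏ b ∈ Finset.range ℓ, scale (ζ ^ b) (DeltaInvC Kb)

theorem prodD_mul_prodDinv (ζ : Kbˣ) : prodD ℓ ζ * prodDinv ℓ ζ = 1 := by
  rw [prodD, prodDinv, mul_mul_mul_comm, ← map_mul, DeltaC_mul_DeltaInvC, map_one, one_mul,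
    ← Finset.prod_mul_distrib]
  refine Finset.prod_eq_one fun b _ => ?_
  rw [← map_mul, DeltaC_mul_DeltaInvC, map_one]

theorem prodD_eq_of_primitive {ζ ζ' : Kbˣ} (hζ : IsPrimitiveRoot ζ ℓ)
    (hζ' : IsPrimitiveRoot ζ' ℓ) : prodD ℓ ζ' = prodD ℓ ζ := by
  rw [prodD, prodD, prod_pow_primitiveRoot_eq hζ hζ' (fun ξ => scale ξ (DeltaC Kb))]

theorem prodDinv_eq_of_primitive {ζ ζ' : Kbˣ} (hζ : IsPrimitiveRoot ζ ℓ)
    (hζ' : IsPrimitiveRoot ζ' ℓ) : prodDinv ℓ ζ' = prodDinv ℓ ζ := by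
  rw [prodDinv, prodDinv, prod_pow_primitiveRoot_eq hζ hζ' (fun ξ => scale ξ (DeltaInvC Kb))]

/-- **`Δ(s^{ℓ²}) ∏_{b<ℓ} Δ(ζ^b s) = ε Δ(s^ℓ)^{ℓ+1}`** in `ℚ̄((s))`, for every primitive `ζ`. -/
theorem delta_prod_Kb {ζ : Kbˣ} (hζ : IsPrimitiveRoot ζ ℓ) :
    prodD ℓ ζ = HahnSeries.C ((epsKb ℓ : Kbˣ) : Kb) * qExpand Kb ℓ (DeltaC Kb) ^ (ℓ + 1) := by
  rw [prodD_eq_of_primitive ℓ (isPrimitiveRoot_zetaKb ℓ) hζ]
  have h := uInfS_mul_prod_vFin_Kb ℓ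
  have h1 : ∏ b ∈ Finset.range ℓ, vFin ℓ (zetaKb ℓ) b =
      (∏ b ∈ Finset.range ℓ, scale (zetaKb ℓ ^ b) (DeltaC Kb)) *
        qExpand Kb ℓ (DeltaInvC Kb) ^ ℓ := by
    simp only [vFin]
    rw [Finset.prod_mul_distrib, Finset.prod_const, Finset.card_range]
  rw [h1, uInfS] at h
  have h2 : prodD ℓ (zetaKb ℓ) * qExpand Kb ℓ (DeltaInvC Kb) ^ (ℓ + 1) =
      HahnSeries.C ((epsKb ℓ : Kbˣ) : Kb) := by
    rw [← h, prodD, pow_succ]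
    ring
  calc prodD ℓ (zetaKb ℓ)
      = prodD ℓ (zetaKb ℓ) * (qExpand Kb ℓ (DeltaInvC Kb) * qExpand Kb ℓ (DeltaC Kb)) ^ (ℓ + 1) := by
        rw [mul_comm (qExpand Kb ℓ (DeltaInvC Kb)), qExpand_DeltaC_mul_inv, one_pow, mul_one]
    _ = (prodD ℓ (zetaKb ℓ) * qExpand Kb ℓ (DeltaInvC Kb) ^ (ℓ + 1)) *
          qExpand Kb ℓ (DeltaC Kb) ^ (ℓ + 1) := by
        rw [mul_pow]; ring
    _ = _ := by rw [h2]

/-- the inverse identity -/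
theorem deltaInv_prod_Kb {ζ : Kbˣ} (hζ : IsPrimitiveRoot ζ ℓ) :
    prodDinv ℓ ζ =
      HahnSeries.C (((epsKb ℓ)⁻¹ : Kbˣ) : Kb) * qExpand Kb ℓ (DeltaInvC Kb) ^ (ℓ + 1) := by
  have h1 := prodD_mul_prodDinv ℓ ζ
  have h2 := delta_prod_Kb ℓ hζ
  have h3 : (HahnSeries.C ((epsKb ℓ : Kbˣ) : Kb) : LaurentSeries Kb) *
      HahnSeries.C (((epsKb ℓ)⁻¹ : Kbˣ) : Kb) = 1 := by
    rw [← map_mul, ← Units.val_mul, mul_inv_cancel, Units.val_one, map_one]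
  calc prodDinv ℓ ζ
      = prodDinv ℓ ζ * ((HahnSeries.C ((epsKb ℓ : Kbˣ) : Kb) *
          HahnSeries.C (((epsKb ℓ)⁻¹ : Kbˣ) : Kb)) *
          (qExpand Kb ℓ (DeltaC Kb) * qExpand Kb ℓ (DeltaInvC Kb)) ^ (ℓ + 1)) := by
        rw [h3, qExpand_DeltaC_mul_inv, one_pow, mul_one, mul_one]
    _ = (prodD ℓ ζ * prodDinv ℓ ζ) * (HahnSeries.C (((epsKb ℓ)⁻¹ : Kbˣ) : Kb) *
          qExpand Kb ℓ (DeltaInvC Kb) ^ (ℓ + 1)) := by
        rw [h2, mul_pow]; ring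
    _ = _ := by rw [h1, one_mul]


theorem qExpand_comm (m n : ℕ) [NeZero m] [NeZero n] (f : LaurentSeries Kb) :
    qExpand Kb m (qExpand Kb n f) = qExpand Kb n (qExpand Kb m f) := by
  haveI : NeZero (m * n) := ⟨Nat.mul_ne_zero (NeZero.ne m) (NeZero.ne n)⟩
  haveI : NeZero (n * m) := ⟨Nat.mul_ne_zero (NeZero.ne n) (NeZero.ne m)⟩
  rw [qExpand_qExpand, qExpand_qExpand]
  exact qExpand_congr (mul_comm m n) f

/-- **`T(s^{ℓ²}) ∏_{b<ℓ} T(ζ^b s) = T(s^ℓ)^{ℓ+1}`** for `T = Δ(s)/Δ(s^q)`, `q` prime to `ℓ`. -/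
theorem TK_prod_Kb (q : ℕ) [NeZero q] (hqℓ : Nat.Coprime q ℓ) {ζ : Kbˣ}
    (hζ : IsPrimitiveRoot ζ ℓ) :
    qExpand Kb (ℓ * ℓ) (TK Kb q) * ∏ b ∈ Finset.range ℓ, scale (ζ ^ b) (TK Kb q) =
      qExpand Kb ℓ (TK Kb q) ^ (ℓ + 1) := by
  have hζq : IsPrimitiveRoot (ζ ^ q) ℓ := hζ.pow_of_coprime q hqℓ
  have h1 : qExpand Kb (ℓ * ℓ) (qExpand Kb q (DeltaInvC Kb)) *
      ∏ b ∈ Finset.range ℓ, scale (ζ ^ b) (qExpand Kb q (DeltaInvC Kb)) =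
      qExpand Kb q (prodDinv ℓ (ζ ^ q)) := by
    rw [prodDinv, map_mul, map_prod, qExpand_comm]
    congr 1
    refine Finset.prod_congr rfl fun b _ => ?_
    rw [scale_qExpand, ← pow_mul, mul_comm b q, pow_mul]
  have h2 : qExpand Kb (ℓ * ℓ) (TK Kb q) * ∏ b ∈ Finset.range ℓ, scale (ζ ^ b) (TK Kb q) =
      prodD ℓ ζ * qExpand Kb q (prodDinv ℓ (ζ ^ q)) := by
    rw [← h1, prodD, TK]
    simp only [map_mul, Finset.prod_mul_distrib]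
    ring
  have h3 : (HahnSeries.C ((epsKb ℓ : Kbˣ) : Kb) : LaurentSeries Kb) *
      HahnSeries.C (((epsKb ℓ)⁻¹ : Kbˣ) : Kb) = 1 := by
    rw [← map_mul, ← Units.val_mul, mul_inv_cancel, Units.val_one, map_one]
  rw [h2, delta_prod_Kb ℓ hζ, deltaInv_prod_Kb ℓ hζq, map_mul, map_pow, Fermat.Agent.ES.qExpand_C,
    TK, map_mul, mul_pow, qExpand_comm ℓ q]
  calc HahnSeries.C ((epsKb ℓ : Kbˣ) : Kb) * qExpand Kb ℓ (DeltaC Kb) ^ (ℓ + 1) *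
        (HahnSeries.C (((epsKb ℓ)⁻¹ : Kbˣ) : Kb) *
          qExpand Kb q (qExpand Kb ℓ (DeltaInvC Kb)) ^ (ℓ + 1))
      = (HahnSeries.C ((epsKb ℓ : Kbˣ) : Kb) * HahnSeries.C (((epsKb ℓ)⁻¹ : Kbˣ) : Kb)) *
          (qExpand Kb ℓ (DeltaC Kb) ^ (ℓ + 1) *
            qExpand Kb q (qExpand Kb ℓ (DeltaInvC Kb)) ^ (ℓ + 1)) := by ring
    _ = _ := by rw [h3, one_mul]


/-! ### the norm identity -/

section Norm

open Fermat.Agent.BR.TwoVal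

variable (M q : ℕ) [NeZero M] [hq : Fact q.Prime]

/-- **`Nm_α (β T) = T ^ (ℓ + 1)`** : the modular unit `T = Δ(s)/Δ(s^q)` of `F̄_{Mq}` is a
multiplicative eigenfunction of `T_ℓ`, `ℓ ∤ M q`. -/
theorem normAlpha_beta_TB (hℓMq : ¬ ℓ ∣ M * q) :
    normAlpha (M * q) ℓ (heckeBetaBar Kb (M * q) ℓ (TB M q)) = TB M q ^ (ℓ + 1) := by
  have hqℓ : Nat.Coprime q ℓ := by
    rw [Nat.coprime_comm, Nat.Prime.coprime_iff_not_dvd hℓ.out]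
    exact fun h => hℓMq (Dvd.dvd.mul_left h M)
  have hPF := productFormula hℓ.out hℓMq (zetaKb ℓ) (isPrimitiveRoot_zetaKb ℓ) (TB M q)
  rw [coe_TB, TK_prod_Kb ℓ q hqℓ (isPrimitiveRoot_zetaKb ℓ), ← map_pow] at hPF
  apply Subtype.ext
  have hinj : Function.Injective (qExpand Kb ℓ) := (qExpand Kb ℓ).injective
  have h2 : ((TB M q ^ (ℓ + 1) : Fb (M * q)) : LaurentSeries Kb) = TK Kb q ^ (ℓ + 1) := by
    rw [← coe_TB M q]
    rfl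
  rw [h2]
  exact hinj hPF

end Norm

end Fermat.Agent.FF4.Hecke2.DeltaNorm
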