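/-
PROGRAMME II (S44), block A3a D-HECKE2, LEAF H5 of the blueprint #1869 (helper1): the divisor of
the Hasse function `τ = T̄₁ = H(j̃)` (`H = TbarPolyK k q`, `deg H = q - 1`; `τ = res₀ (TB M q)`, the
reduction on the component `0` of the modular unit `Δ(s)/Δ(s^q)`) on `F̃_M`, at a level `M` WITHOUT
elliptic points (`nuTwo M = nuThree M = 0`), `q ∤ M`:

* `ord_tau_eq`          : `ord_{z₁ e} τ = 12` at EVERY crossing `e`;
* `ord_tau_pos_iff`     : `0 < ord_Q τ ↔ ∃ e, Q = z₁ e` (the zeros of `τ` are exactly the crossings);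
* `ord_tau_nonneg`      : `0 ≤ ord_Q j̃ → 0 ≤ ord_Q τ` (`τ` is a polynomial in `j̃`);
* `ord_tau_eq_zero`     : at an affine place (`0 ≤ ord_Q j̃`) which is not a crossing, `ord_Q τ = 0`;
* `ord_tau_of_affine`   : at an affine place, `ord_Q τ = 12` or `ord_Q τ = 0`;
* `z₁_injective`        : the crossings are pairwise distinct points of the component `0`;
* `ord_tau_s₁`, `ord_tau_pos_iff_setup`, `isBranch_zero_iff` : the same in the vocabulary of
  `setup Dt` (`(setup Dt).s₁ e = z₁ e`); `isResidue_TB : IsResidue (setup Dt) 0 (TB M q) τ`;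
* `ord_j_nonneg_of_crossing` : the crossings are affine points.

Everything is a thin wrapper around the LANDED equality case of the SANDWICH
(`BR3.ThickOneCount.thickness_one`, `z₁_injective`; `BR.S0.ThickFinal.hzero_modular`;
`BR.ZeroCount.ord_aeval_nonneg`): no `ModularData` is needed for the first six statements.
-/
import Mathlib
import Fermat.Agent.BR3.ThickOneCount
import Fermat.Agent.BR2.SetupOfData

set_option autoImplicit false
set_option linter.unusedSectionVars false
set_option linter.style.haveILetI false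
set_option synthInstance.maxHeartbeats 400000

noncomputable section

namespace Fermat.Agent.FF4.Hecke2.OrdTau

open AlgebraicCurve ModularCurve IsLocalRing Polynomial
open Fermat.Agent.Red Fermat.Agent.X0 Fermat.Agent.Val Fermat.Agent.BR.SS
open Fermat.Agent.BR.ModUnit
open Fermat.Agent.BR.S0 Fermat.Agent.BR.S0.RedModular Fermat.Agent.BR.S0.PointDict
open Fermat.Agent.BR.S0.Modular Fermat.Agent.BR.S0.RedHyp

variable {M q : ℕ} [NeZero M] [hq : Fact q.Prime]
variable (B : ValuationSubring (AlgebraicClosure ℚ)) (hB : B.LiesOverPrime q) (hqM : ¬ q ∣ M)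

local notation "kB" => IsLocalRing.ResidueField B
local notation "FtM" => modularFunctionFieldFullC (IsLocalRing.ResidueField B) M
local notation "Kb" => AlgebraicClosure ℚ

/-- **The Hasse function** `τ = H(j̃)` on the component `0`. -/
def tau : FtM :=
  haveI := charP_res q B hB
  aeval (jFullC kB M) (TbarPolyK kB q)

theorem tau_def :
    haveI := charP_res q B hB
    tau (M := M) B hB = aeval (jFullC kB M) (TbarPolyK kB q) := rfl

include hqM in
theorem tau_ne_zero : tau (M := M) B hB ≠ 0 := by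
  haveI := charP_res q B hB
  exact aeval_jFullC_ne_zero M q B hB hqM (TbarPolyK kB q) (TbarPolyK_natDegree kB q)

/-- **`ord_{z₁ e} τ = 12` at every crossing** (level without elliptic points). -/
theorem ord_tau_eq (h2 : nuTwo M = 0) (h3 : nuThree M = 0)
    (e : Crossing (chartDataModular B hB hqM)) :
    (z₁ (chartDataModular B hB hqM) e).ord (tau (M := M) B hB) = 12 :=
  Fermat.Agent.BR3.ThickOneCount.thickness_one B hB hqM h2 h3 e

/-- **The zeros of `τ` are exactly the crossings.** -/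
theorem ord_tau_pos_iff (h2 : nuTwo M = 0) (h3 : nuThree M = 0) (Q : Place kB FtM) :
    0 < Q.ord (tau (M := M) B hB) ↔ ∃ e, Q = z₁ (chartDataModular B hB hqM) e := by
  constructor
  · intro hQ
    obtain ⟨Q₂, h⟩ := ThickFinal.hzero_modular B hB hqM Q hQ
    exact ⟨⟨(Q, Q₂), h⟩, rfl⟩
  · rintro ⟨e, rfl⟩
    rw [ord_tau_eq B hB hqM h2 h3 e]
    norm_num

/-- `τ` is a polynomial in `j̃`: it is regular wherever `j̃` is. -/
theorem ord_tau_nonneg (Q : Place kB FtM) (hQ : 0 ≤ Q.ord (jFullC kB M)) :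
    0 ≤ Q.ord (tau (M := M) B hB) := by
  haveI := charP_res q B hB
  exact Fermat.Agent.BR.ZeroCount.ord_aeval_nonneg Q hQ (TbarPolyK kB q)

/-- At an affine place which is not a crossing `τ` is a unit. -/
theorem ord_tau_eq_zero (h2 : nuTwo M = 0) (h3 : nuThree M = 0) (Q : Place kB FtM)
    (hQ : 0 ≤ Q.ord (jFullC kB M)) (hne : ∀ e, Q ≠ z₁ (chartDataModular B hB hqM) e) :
    Q.ord (tau (M := M) B hB) = 0 := by
  have h1 := ord_tau_nonneg B hB Q hQ
  have h2' : ¬ 0 < Q.ord (tau (M := M) B hB) := fun h =>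
    let ⟨e, he⟩ := (ord_tau_pos_iff B hB hqM h2 h3 Q).mp h
    hne e he
  omega

/-- At an affine place the order of `τ` is `12` (crossings) or `0`. -/
theorem ord_tau_of_affine (h2 : nuTwo M = 0) (h3 : nuThree M = 0) (Q : Place kB FtM)
    (hQ : 0 ≤ Q.ord (jFullC kB M)) :
    (∃ e, Q = z₁ (chartDataModular B hB hqM) e ∧ Q.ord (tau (M := M) B hB) = 12) ∨
      ((∀ e, Q ≠ z₁ (chartDataModular B hB hqM) e) ∧ Q.ord (tau (M := M) B hB) = 0) := by
  by_cases h : ∃ e, Q = z₁ (chartDataModular B hB hqM) e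
  · obtain ⟨e, rfl⟩ := h
    exact Or.inl ⟨e, rfl, ord_tau_eq B hB hqM h2 h3 e⟩
  · push Not at h
    exact Or.inr ⟨h, ord_tau_eq_zero B hB hqM h2 h3 Q hQ h⟩

/-- The crossings are pairwise distinct points of the component `0`. -/
theorem z₁_injective (h2 : nuTwo M = 0) (h3 : nuThree M = 0) :
    Function.Injective (z₁ (chartDataModular B hB hqM)) :=
  Fermat.Agent.BR3.ThickOneCount.z₁_injective B hB hqM h2 h3

/-- the crossings are affine points: `j̃` is regular there (`τ` has a zero, not a pole) -/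
theorem ord_j_nonneg_of_crossing (h2 : nuTwo M = 0) (h3 : nuThree M = 0)
    (e : Crossing (chartDataModular B hB hqM)) :
    0 ≤ (z₁ (chartDataModular B hB hqM) e).ord (jFullC kB M) := by
  haveI := charP_res q B hB
  by_contra hneg
  push Not at hneg
  have h1 := Fermat.Agent.BR.ZeroCount.ord_aeval_eq_mul (z₁ (chartDataModular B hB hqM) e) hneg
    (TbarPolyK_ne_zero kB q)
  have h2' := ord_tau_eq B hB hqM h2 h3 e
  rw [tau_def, h1] at h2'
  have h3' : (0 : ℤ) ≤ ((TbarPolyK kB q).natDegree : ℤ) := Int.natCast_nonneg _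
  nlinarith

/-! ### in the vocabulary of `setup Dt` -/

section Setup

open Fermat.Agent.BR.Final Fermat.Agent.BR2.SetupOfData

variable {B hB hqM}
variable [IsAlgClosed (ResidueField B)]

theorem ord_tau_s₁ (Dt : ModularData M q B hB hqM) (h2 : nuTwo M = 0) (h3 : nuThree M = 0)
    (e : Crossing (chartDataModular B hB hqM)) :
    ((setup Dt).s₁ e).ord (tau (M := M) B hB) = 12 :=
  ord_tau_eq B hB hqM h2 h3 e

theorem ord_tau_pos_iff_setup (Dt : ModularData M q B hB hqM) (h2 : nuTwo M = 0)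
    (h3 : nuThree M = 0) (Q : Place kB FtM) :
    0 < Q.ord (tau (M := M) B hB) ↔ ∃ e, Q = (setup Dt).s₁ e :=
  ord_tau_pos_iff B hB hqM h2 h3 Q

/-- the branch points of the component `0` of `setup Dt` are exactly the points `s₁ e = z₁ e` -/
theorem isBranch_zero_iff (Dt : ModularData M q B hB hqM) (Q : Place kB FtM) :
    (setup Dt).IsBranch ⟨0, Q⟩ ↔ ∃ e, Q = z₁ (chartDataModular B hB hqM) e := by
  constructor
  · rintro ⟨e, h | h⟩
    · obtain ⟨-, h2⟩ := Sigma.mk.inj_iff.mp h
      exact ⟨e, (eq_of_heq h2)⟩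
    · obtain ⟨h1, -⟩ := Sigma.mk.inj_iff.mp h
      rw [setup_tgt] at h1
      exact absurd h1 (by decide)
  · rintro ⟨e, rfl⟩
    exact ⟨e, Or.inl rfl⟩

/-- **`τ` is the residue on the component `0` of the modular unit `TB M q = Δ(s)/Δ(s^q)`.** -/
theorem isResidue_TB (Dt : ModularData M q B hB hqM) :
    Fermat.Agent.BR2.Filt.IsResidue (setup Dt) 0 (TB M q) (tau (M := M) B hB) := by
  have hmem : (1 : Kb) • TB M q ∈ (setup Dt).O 0 := by
    rw [one_smul]
    exact TB_mem_O1 M q B hB
  refine ⟨tau_ne_zero B hB hqM, 1, one_ne_zero, hmem, ?_⟩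
  have e : (⟨(1 : Kb) • TB M q, hmem⟩ : (setup Dt).O 0) = ⟨TB M q, TB_mem_O1 M q B hB⟩ :=
    Subtype.ext (one_smul _ _)
  rw [e]
  exact constRedW1_res_TB M q B hB hqM

end Setup

end Fermat.Agent.FF4.Hecke2.OrdTau
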