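/-
PROGRAMME II (S40/S44), block A3a D-HECKE2, leaves H2 + H4 (blueprint #1869):
NORM COMMUTES WITH RESIDUE ON THE COMPONENT 0 for the Hecke correspondence `(α, β)` at `ℓ ∤ M q`:
for `y ∈ O₀ ⊂ F̄_{Mq}` (Gauss valuation) the element `Nm_α (β y)` lies in `O₀` and
`res₀ (Nm_α (β y)) = Nm_ᾱ (β̄ (res₀ y))`; calibration `Nm_ᾱ (β̄ τ) = τ ^ (ℓ + 1)` for
`τ = res₀ (TB M q)`.
-/
import Mathlib
import Fermat.Agent.FF4.Hecke2.TwoLevel
import Fermat.Agent.FF4.Hecke2.DegC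
import Fermat.Agent.FF4.Hecke2.DeltaNorm
import Fermat.Agent.FF4.Hecke2.OrdTau
import Fermat.Agent.Jac.Spec.NormResidue
import Fermat.Agent.BR2.PicFunct2

set_option autoImplicit false
set_option linter.unusedSectionVars false
set_option linter.style.haveILetI false

noncomputable section

set_option synthInstance.maxHeartbeats 400000
set_option maxHeartbeats 1000000

namespace Fermat.Agent.FF4.Hecke2.NormRes0

open AlgebraicCurve ModularCurve IntermediateField IsLocalRing Polynomial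
  Fermat.Agent.FF Fermat.Agent.Val Fermat.Agent.Hecke Fermat.Agent.Hecke.Deg Fermat.Agent.X0
  Fermat.Agent.BR.TwoVal Fermat.Agent.BR.S0.RedModular Fermat.Agent.BR.ConstRedTwo
  Fermat.Agent.FF4.Hecke2 Fermat.Agent.FF4.Hecke2.TwoLevel Fermat.Agent.FF4.Hecke2.DegC
  Fermat.Agent.Jac Fermat.Agent.Red Fermat.Agent.BR.ModUnit

/-! ### level casts -/

section Cast

variable {F₀ : Type*} [Field F₀] [Algebra Kb F₀]

theorem castF_comp_eq {N : ℕ} (φ : F₀ →ₐ[Kb] Fb N) :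
    (castF (rfl : N = N)).toAlgHom.comp φ = φ := by
  ext x
  rfl

theorem normAlong_castF_comp {N N' : ℕ} (h : N = N') (φ : F₀ →ₐ[Kb] Fb N) (z : Fb N) :
    normAlong ((castF h).toAlgHom.comp φ) (castF h z) = normAlong φ z := by
  subst h
  rw [Fermat.Agent.BR2.PicFunct2.normAlong_congr (castF_comp_eq φ)]
  rfl

theorem finiteAlong_castF_comp {N N' : ℕ} (h : N = N') (φ : F₀ →ₐ[Kb] Fb N)
    (hfin : FiniteAlong Kb φ) : FiniteAlong Kb ((castF h).toAlgHom.comp φ) := by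
  subst h
  rw [castF_comp_eq φ]
  exact hfin

theorem finrankAlong_castF_comp {N N' : ℕ} (h : N = N') (φ : F₀ →ₐ[Kb] Fb N) :
    finrankAlong Kb ((castF h).toAlgHom.comp φ) = finrankAlong Kb φ := by
  subst h
  rw [castF_comp_eq φ]

end Cast

/-! ### the two degeneracy maps at level `M q → M ℓ q` -/

section Main

variable {M q : ℕ} [NeZero M] [hq : Fact q.Prime] (ℓ : ℕ) [hℓ : Fact ℓ.Prime]
  (B : ValuationSubring Kb) (hB : B.LiesOverPrime q)
  (hqM : ¬ q ∣ M) (hqMℓ : ¬ q ∣ M * ℓ) (hℓM : ¬ ℓ ∣ M) (hℓMq : ¬ ℓ ∣ M * q)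

local instance neZero_ell' : NeZero ℓ := ⟨hℓ.out.ne_zero⟩

local notation "kB" => ResidueField B

omit hℓ in
theorem finiteAlong_phiA [NeZero ℓ] : FiniteAlong Kb (phiA M q ℓ) :=
  finiteAlong_castF_comp _ _ (finiteAlong_heckeAlphaBar (M * q) ℓ)

include hℓMq in
theorem finrankAlong_phiA : finrankAlong Kb (phiA M q ℓ) = ℓ + 1 := by
  show finrankAlong Kb ((castF (Nat.mul_right_comm M q ℓ)).toAlgHom.comp
    (heckeAlphaBar Kb (M * q) ℓ)) = ℓ + 1
  rw [finrankAlong_castF_comp]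
  exact finrankAlong_heckeAlphaBar (M * q) ℓ hℓ.out hℓMq

omit hℓ in
/-- `Nm_α (β y)` in the vocabulary of the two-level maps -/
theorem normAlong_phiA_phiB [NeZero ℓ] (y : Fb (M * q)) :
    normAlong (phiA M q ℓ) (phiB M q ℓ y) =
      Fermat.Agent.ES.normAlpha (M * q) ℓ (heckeBetaBar Kb (M * q) ℓ y) :=
  normAlong_castF_comp (Nat.mul_right_comm M q ℓ) (heckeAlphaBar Kb (M * q) ℓ)
    (heckeBetaBar Kb (M * q) ℓ y)

include hB hqM hqMℓ hℓM hℓMq in
/-- **(H2) norm commutes with residue along `α`**, on both components -/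
theorem res_normAlong_phiA (v : Fin 2) (z : (compW B hB hqMℓ v).O) :
    ∃ hn : normAlong (phiA M q ℓ) (z : Fb (M * ℓ * q)) ∈ (compW B hB hqM v).O,
      (compW B hB hqM v).res ⟨normAlong (phiA M q ℓ) (z : Fb (M * ℓ * q)), hn⟩ =
        normAlong (alphaC kB M ℓ) ((compW B hB hqMℓ v).res z) := by
  letI := algebraAlong (phiA M q ℓ)
  letI := algebraAlong (alphaC kB M ℓ)
  haveI : FiniteDimensional (Fb (M * q)) (Fb (M * ℓ * q)) := finiteAlong_phiA (M := M) (q := q) ℓ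
  have hData : Fermat.Agent.Jac.Spec.NormRes.Data (compW B hB hqM v).O (compW B hB hqMℓ v).O
      (compW B hB hqM v).res (compW B hB hqMℓ v).res :=
    { le := fun x hx => phiA_mem hqM hqMℓ B hB v hx
      resF_eq_zero := (compW B hB hqM v).res_eq_zero_iff
      resE_eq_zero := (compW B hB hqMℓ v).res_eq_zero_iff
      resE_surjective := (compW B hB hqMℓ v).res_surjective
      compat := fun x hx => res_phiA hqM hqMℓ B hB v hx _ }
  have hdeg : Module.finrank (Fb (M * q)) (Fb (M * ℓ * q)) ≤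
      Module.finrank ↥(modularFunctionFieldFullC kB M) ↥(modularFunctionFieldFullC kB (M * ℓ)) := by
    have h1 : Module.finrank (Fb (M * q)) (Fb (M * ℓ * q)) = ℓ + 1 := finrankAlong_phiA ℓ hℓMq
    have h2 : Module.finrank ↥(modularFunctionFieldFullC kB M)
        ↥(modularFunctionFieldFullC kB (M * ℓ)) = ℓ + 1 :=
      finrankAlong_alphaC M ℓ B hB hqM hqMℓ hℓM
    rw [h1, h2]
  exact Fermat.Agent.Jac.Spec.NormRes.norm_mem_and_res hData hdeg z

include hB hqM hqMℓ hℓM hℓMq in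
/-- **(H2)** `Nm_α (β y) ∈ O_v` and `res_v (Nm_α (β y)) = Nm_ᾱ (β̄ (res_v y))` -/
theorem res_normAlpha_beta (v : Fin 2) (y : Fb (M * q)) (hy : y ∈ (compW B hB hqM v).O) :
    ∃ hn : Fermat.Agent.ES.normAlpha (M * q) ℓ (heckeBetaBar Kb (M * q) ℓ y) ∈
        (compW B hB hqM v).O,
      (compW B hB hqM v).res
          ⟨Fermat.Agent.ES.normAlpha (M * q) ℓ (heckeBetaBar Kb (M * q) ℓ y), hn⟩ =
        normAlong (alphaC kB M ℓ) (betaC kB M ℓ ((compW B hB hqM v).res ⟨y, hy⟩)) := by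
  have hmem : phiB M q ℓ y ∈ (compW B hB hqMℓ v).O := phiB_mem hqM hqMℓ B hB v hy
  obtain ⟨hn, hres⟩ := res_normAlong_phiA ℓ B hB hqM hqMℓ hℓM hℓMq v ⟨phiB M q ℓ y, hmem⟩
  rw [res_phiB hqM hqMℓ B hB v hy hmem] at hres
  have e := normAlong_phiA_phiB (M := M) (q := q) ℓ y
  refine ⟨e ▸ hn, ?_⟩
  rw [← hres]
  congr 1
  exact Subtype.ext e.symm

include hB hqM hqMℓ hℓM hℓMq in
/-- **(H4) calibration**: `Nm_ᾱ (β̄ τ) = τ ^ (ℓ + 1)` for the Hasse function `τ = res₀ (TB M q)` -/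
theorem normAlong_alphaC_betaC_tau :
    normAlong (alphaC kB M ℓ) (betaC kB M ℓ (OrdTau.tau (M := M) B hB)) =
      OrdTau.tau (M := M) B hB ^ (ℓ + 1) := by
  have hT : TB M q ∈ (compW B hB hqM 0).O := Fermat.Agent.BR.ModUnit.TB_mem_O1 M q B hB
  have hres : (compW B hB hqM 0).res ⟨TB M q, hT⟩ = OrdTau.tau (M := M) B hB :=
    Fermat.Agent.BR.ModUnit.constRedW1_res_TB M q B hB hqM
  obtain ⟨hn, h⟩ := res_normAlpha_beta ℓ B hB hqM hqMℓ hℓM hℓMq 0 (TB M q) hT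
  rw [hres] at h
  rw [← h]
  have e := DeltaNorm.normAlpha_beta_TB ℓ M q hℓMq
  have hp : TB M q ^ (ℓ + 1) ∈ (compW B hB hqM 0).O := (compW B hB hqM 0).O.pow_mem hT _
  have e2 : (⟨Fermat.Agent.ES.normAlpha (M * q) ℓ (heckeBetaBar Kb (M * q) ℓ (TB M q)), hn⟩ :
      (compW B hB hqM 0).O) = (⟨TB M q, hT⟩ : (compW B hB hqM 0).O) ^ (ℓ + 1) :=
    Subtype.ext e
  rw [e2, map_pow, hres]

end Main

end Fermat.Agent.FF4.Hecke2.NormRes0
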