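/-
PROGRAMME II (S40/S44), block A3a D-HECKE2, leaf H7 = (K2) (blueprint #1869):
THE COMPONENT GROUP IS EISENSTEIN.  `M` without elliptic points (`nuTwo M = nuThree M = 0`),
`q ∤ M`, `ℓ ∤ M q` prime, `m` prime to `12`: for an `m`-torsion class `x` of `J₀(Mq)` whose slopes at
all the crossings are equal to `a ∈ ℤ/m`, the slopes of `T_ℓ x` are all equal to `(ℓ + 1) a`
(`heckeSlopeOut : HeckeSlopeOut Dt ℓ m`).

Proof: norm–residue on the component `0` (`NormRes0`), calibration by the Hasse function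
`τ = res₀ (Δ(s)/Δ(s^q))` (`Nm_ᾱ (β̄ τ) = τ ^ (ℓ + 1)`, `ord_{z₁ e} τ = 12`), and the correspondence
preserves divisibility by `m` of the affine orders (`CorrModMFiber`).
-/
import Mathlib
import Fermat.Agent.FF4.Hecke2.Contract
import Fermat.Agent.FF4.Hecke2.Generic
import Fermat.Agent.FF4.Hecke2.NormRes0
import Fermat.Agent.FF4.Hecke2.CorrModMFiber
import Fermat.Agent.Jac.HeckeComm
import Fermat.Agent.ES.NormCongruence

set_option autoImplicit false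
set_option linter.unusedSectionVars false
set_option linter.style.haveILetI false

noncomputable section

set_option synthInstance.maxHeartbeats 400000
set_option maxHeartbeats 1000000

namespace Fermat.Agent.FF4.Hecke2.HeckeSlope

open AlgebraicCurve ModularCurve IsLocalRing
  Fermat.Agent.Val Fermat.Agent.Hecke Fermat.Agent.X0 Fermat.Agent.Jac Fermat.Agent.Red
  Fermat.Agent.ES Fermat.Agent.BR2 Fermat.Agent.FF4.Hecke2

/-! ### the abstract calibration argument -/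

section Abstract

variable {k Ft Ft' : Type*} [Field k] [Field Ft] [Field Ft'] [Algebra k Ft] [Algebra k Ft']
  [HasPrincipalDivisors k Ft']

/-- **Calibration.**  `N := Nm_φ ∘ ψ`, `τ` with `N τ = τ ^ d`, `ord_{Q₀} τ = 12`, `m` prime to `12`;
if `12 ord_Q g ≡ a' ord_Q τ (mod m)` at all affine `Q`, then `ord_{Q₀} (N g) ≡ d a' (mod m)`. -/
theorem dvd_ord_norm_sub (φ ψ : Ft →ₐ[k] Ft') (hφ : φ.toRingHom.IsIntegral)
    (hψ : ψ.toRingHom.IsIntegral) (hfin : FiniteAlong k φ) (hN : NormFormulaAlong k φ hfin)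
    (j : Ft) (haff : ∀ W : Place k Ft', 0 ≤ W.ord (φ j) → 0 ≤ W.ord (ψ j))
    {τ : Ft} (hτ : τ ≠ 0) {d : ℕ} (hNτ : normAlong φ (ψ τ) = τ ^ d)
    {m : ℕ} (hm12 : Nat.Coprime m 12) {g : Ft} (hg : g ≠ 0) (a' : ℕ)
    (hdiv : ∀ Q : Place k Ft, 0 ≤ Q.ord j → (m : ℤ) ∣ 12 * Q.ord g - a' * Q.ord τ)
    (Q₀ : Place k Ft) (hQ₀ : 0 ≤ Q₀.ord j) (hτQ₀ : Q₀.ord τ = 12) :
    (m : ℤ) ∣ Q₀.ord (normAlong φ (ψ g)) - (d : ℤ) * a' := by
  set y : Ft := g ^ 12 * (τ ^ a')⁻¹ with hy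
  have hτa : τ ^ a' ≠ 0 := pow_ne_zero _ hτ
  have hy0 : y ≠ 0 := mul_ne_zero (pow_ne_zero _ hg) (inv_ne_zero hτa)
  have hyτ : y * τ ^ a' = g ^ 12 := by
    rw [hy, mul_assoc, inv_mul_cancel₀ hτa, mul_one]
  have hordy : ∀ Q : Place k Ft, Q.ord y = 12 * Q.ord g - a' * Q.ord τ := by
    intro Q
    rw [hy, Q.ord_mul (pow_ne_zero _ hg) (inv_ne_zero hτa), Q.ord_inv, Place.ord_pow,
      Place.ord_pow]
    push_cast
    ring
  have h6 := CorrModMFiber.dvd_ord_normAlong_of_affine φ ψ hφ hψ hfin hN j haff (m := (m : ℤ))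
    hy0 (fun Q hQ => by rw [hordy Q]; exact hdiv Q hQ) Q₀ hQ₀
  -- the norm of the relation
  have hrel : normAlong φ (ψ y) * (τ ^ d) ^ a' = normAlong φ (ψ g) ^ 12 := by
    have := congrArg (fun z => normAlong φ (ψ z)) hyτ
    simp only [map_mul, map_pow, normAlong_mul, CorrModMFiber.normAlong_npow, hNτ] at this
    exact this
  have hNy0 : normAlong φ (ψ y) ≠ 0 := normAlong_ne_zero φ hfin ((map_ne_zero ψ).mpr hy0)
  have hNg0 : normAlong φ (ψ g) ≠ 0 := normAlong_ne_zero φ hfin ((map_ne_zero ψ).mpr hg)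
  have hord := congrArg Q₀.ord hrel
  rw [Q₀.ord_mul hNy0 (pow_ne_zero _ (pow_ne_zero _ hτ)), Place.ord_pow, Place.ord_pow,
    Place.ord_pow, hτQ₀] at hord
  have h12 : (m : ℤ) ∣ 12 * (Q₀.ord (normAlong φ (ψ g)) - (d : ℤ) * a') := by
    have e : 12 * (Q₀.ord (normAlong φ (ψ g)) - (d : ℤ) * a') = Q₀.ord (normAlong φ (ψ y)) := by
      push_cast at hord ⊢
      linarith
    rw [e]
    exact h6
  have hcop : IsCoprime (m : ℤ) (12 : ℤ) := by
    have := Nat.isCoprime_iff_coprime.mpr hm12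
    exact_mod_cast this
  exact hcop.dvd_of_dvd_mul_left h12

end Abstract

/-! ### representatives -/

section Rep

variable {K F : Type*} [Field K] [Field F] [Algebra K F]

/-- scaling the function of a representative by a nonzero constant -/
theorem isRep_const_smul {m : ℕ} {x : Pic0 K F} {D : Divisor.degZero (K := K) (F := F)} {f : F}
    (hR : Filt.IsRep m x D f) {c : K} (hc : c ≠ 0) : Filt.IsRep m x D (c • f) := by
  obtain ⟨hx, hf, hD⟩ := hR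
  refine ⟨hx, smul_ne_zero hc hf, fun P => ?_⟩
  rw [hD P, Algebra.smul_def, P.ord_mul ((map_ne_zero _).mpr hc) hf, Place.ord_algebraMap,
    zero_add]

/-- **a representative of `T_ℓ x`**: `(T_ℓ D, Nm_α (β f))` -/
theorem exists_isRep_heckeOperatorBar {N : ℕ} [NeZero N] (ℓ : Nat.Primes) {p : ℕ} {x : JZero N}
    {D : Divisor.degZero (K := Kb) (F := Fb N)} {f : Fb N} (hR : Filt.IsRep p x D f) :
    haveI : NeZero (ℓ : ℕ) := ⟨ℓ.2.ne_zero⟩
    ∃ TD : Divisor.degZero (K := Kb) (F := Fb N),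
      Filt.IsRep p (heckeOperatorBar N ℓ x) TD (normAlpha N ℓ (heckeBetaBar Kb N ℓ f)) := by
  haveI : NeZero (ℓ : ℕ) := ⟨ℓ.2.ne_zero⟩
  obtain ⟨rfl, hf, hD⟩ := hR
  refine ⟨⟨heckeDiv N ℓ D, Divisor.correspondence_mem_degZero _ _ _ _
      (fundamentalIdentityAlong_beta N ℓ) D.2⟩, (heckeOperatorBar_mk ℓ D).symm,
    normAlpha_ne_zero N ℓ ((map_ne_zero _).mpr hf), fun P => ?_⟩
  rw [← heckeDivBar_principal N ℓ f hf (p • (D : Divisor Kb (Fb N))) hD P]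
  show (p • heckeDiv N ℓ (D : Divisor Kb (Fb N))) P = heckeDiv N ℓ (p • (D : Divisor Kb (Fb N))) P
  rw [map_nsmul]

end Rep

/-! ### the modular assembly -/

section Modular

open Fermat.Agent.BR.SS Fermat.Agent.BR.Final Fermat.Agent.BR2.SetupOfData Fermat.Agent.BR
  Fermat.Agent.BR.S0 Fermat.Agent.BR.S0.PointDict Fermat.Agent.BR.S0.RedModular
  Fermat.Agent.BR.TwoVal

variable {M q : ℕ} [NeZero M] [hq : Fact q.Prime]
variable {B : ValuationSubring Kb} {hB : B.LiesOverPrime q} {hqM : ¬ q ∣ M}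
variable [IsAlgClosed (ResidueField B)]

local notation "kB" => IsLocalRing.ResidueField B
local notation "FtM" => modularFunctionFieldFullC (IsLocalRing.ResidueField B) M

/-- a residue of the level `M ℓ`: the data of the abstract argument -/
theorem dvd_ord_normC_sub (h2 : nuTwo M = 0) (h3 : nuThree M = 0) (ℓ : ℕ) [hℓ : Fact ℓ.Prime]
    (hqMℓ : ¬ q ∣ M * ℓ) (hℓM : ¬ ℓ ∣ M) (hℓMq : ¬ ℓ ∣ M * q) {m : ℕ} (hm12 : Nat.Coprime m 12)
    {g : FtM} (hg : g ≠ 0) (a' : ℕ)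
    (hdiv : ∀ Q : Place kB FtM, 0 ≤ Q.ord (jFullC kB M) →
      (m : ℤ) ∣ 12 * Q.ord g - a' * Q.ord (OrdTau.tau (M := M) B hB))
    (e : Crossing (chartDataModular B hB hqM)) :
    haveI : NeZero ℓ := ⟨hℓ.out.ne_zero⟩
    (m : ℤ) ∣ (z₁ (chartDataModular B hB hqM) e).ord
      (normAlong (alphaC kB M ℓ) (betaC kB M ℓ g)) - ((ℓ + 1 : ℕ) : ℤ) * a' := by
  haveI : NeZero ℓ := ⟨hℓ.out.ne_zero⟩
  haveI : NeZero (M * ℓ) := ⟨Nat.mul_ne_zero (NeZero.ne M) hℓ.out.ne_zero⟩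
  haveI : HasPrincipalDivisors kB ↥(modularFunctionFieldFullC kB (M * ℓ)) :=
    (riemannPkg_modL_residueField (M * ℓ) hqMℓ B hB).principal
  exact dvd_ord_norm_sub (alphaC kB M ℓ) (betaC kB M ℓ)
    (DegC.alphaC_isIntegral M ℓ B hB hqM hqMℓ) (DegC.betaC_isIntegral M ℓ B hB hqM hqMℓ)
    (DegC.finiteAlong_alphaC M ℓ B hB hqM hqMℓ) (DegC.normFormulaAlong_alphaC M ℓ B hB hqM hqMℓ)
    (jFullC kB M) (fun W hW => DegC.ord_betaC_jFullC_nonneg M ℓ B hB hqMℓ W hW)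
    (OrdTau.tau_ne_zero B hB hqM)
    (NormRes0.normAlong_alphaC_betaC_tau ℓ B hB hqM hqMℓ hℓM hℓMq) hm12 hg a' hdiv
    (z₁ (chartDataModular B hB hqM) e) (OrdTau.ord_j_nonneg_of_crossing B hB hqM h2 h3 e)
    (OrdTau.ord_tau_eq B hB hqM h2 h3 e)

set_option maxHeartbeats 4000000 in
/-- **(K2) THE COMPONENT GROUP IS EISENSTEIN**: `T_ℓ` multiplies a diagonal slope by `ℓ + 1`. -/
theorem heckeSlopeOut (Dt : ModularData M q B hB hqM) (h2 : nuTwo M = 0) (h3 : nuThree M = 0)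
    (ℓ : Nat.Primes) (hℓ : ¬ (ℓ : ℕ) ∣ M * q) {m : ℕ} (hm : m ≠ 0) (hm12 : Nat.Coprime m 12) :
    HeckeSlopeOut Dt ℓ m := by
  haveI : Fact (ℓ : ℕ).Prime := ⟨ℓ.2⟩
  haveI : NeZero (ℓ : ℕ) := ⟨ℓ.2.ne_zero⟩
  haveI : NeZero m := ⟨hm⟩
  have hℓM : ¬ (ℓ : ℕ) ∣ M := fun h => hℓ (Dvd.dvd.mul_right h q)
  have hℓq : ¬ (ℓ : ℕ) ∣ q := fun h => hℓ (Dvd.dvd.mul_left h M)
  have hqMℓ : ¬ q ∣ M * (ℓ : ℕ) := by
    intro h
    rcases (Nat.Prime.dvd_mul hq.out).mp h with h | h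
    · exact hqM h
    · have : q = (ℓ : ℕ) := (Nat.prime_dvd_prime_iff_eq hq.out ℓ.2).mp h
      exact hℓq (this ▸ dvd_rfl)
  have hF := Fermat.Agent.Val.riemannPkg_bar (M * q)
  intro x a hdiag e₀
  -- a normalised representative
  obtain ⟨D, f, hR, g₀, hg₀, -⟩ := hdiag e₀
  have hg₀' : Filt.IsResidue (setup Dt) 0 f g₀ := hg₀
  have hslope : ∀ e : Crossing (chartDataModular B hB hqM),
      (((z₁ (chartDataModular B hB hqM) e).ord (g₀ : FtM) : ℤ) : ZMod m) = a := fun e =>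
    Generic.isSlope_eq_of_isRep hF (hdiag e) hR hg₀'
  obtain ⟨hg0, c, hc, hmem, hres⟩ := hg₀'
  have hR' := isRep_const_smul hR hc
  -- the representative of `T_ℓ x`
  obtain ⟨TD, hRT⟩ := exists_isRep_heckeOperatorBar ℓ hR'
  -- its residue on the component `0`
  have hmem' : c • f ∈ (compW B hB hqM 0).O := hmem
  obtain ⟨hn, hresN⟩ := NormRes0.res_normAlpha_beta (ℓ : ℕ) B hB hqM hqMℓ hℓM hℓ 0 (c • f) hmem'
  have hres' : (compW B hB hqM 0).res ⟨c • f, hmem'⟩ = (g₀ : FtM) := hres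
  rw [hres'] at hresN
  set G : FtM := normAlong (alphaC kB M (ℓ : ℕ)) (betaC kB M (ℓ : ℕ) (g₀ : FtM)) with hG
  have hG0 : G ≠ 0 :=
    normAlong_ne_zero _ (DegC.finiteAlong_alphaC M (ℓ : ℕ) B hB hqM hqMℓ)
      ((map_ne_zero _).mpr hg0)
  have hresG : Filt.IsResidue (setup Dt) 0
      (normAlpha (M * q) (ℓ : ℕ) (heckeBetaBar Kb (M * q) (ℓ : ℕ) (c • f))) G := by
    have hmem1 : (1 : Kb) • normAlpha (M * q) (ℓ : ℕ) (heckeBetaBar Kb (M * q) (ℓ : ℕ) (c • f)) ∈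
        (setup Dt).O 0 := by
      rw [one_smul]
      exact hn
    refine ⟨hG0, 1, one_ne_zero, hmem1, ?_⟩
    have e : (⟨(1 : Kb) • normAlpha (M * q) (ℓ : ℕ) (heckeBetaBar Kb (M * q) (ℓ : ℕ) (c • f)),
        hmem1⟩ : (setup Dt).O 0) =
        ⟨normAlpha (M * q) (ℓ : ℕ) (heckeBetaBar Kb (M * q) (ℓ : ℕ) (c • f)), hn⟩ :=
      Subtype.ext (one_smul _ _)
    rw [e]
    exact hresN
  refine ⟨TD, _, hRT, G, hresG, ?_⟩
  -- the orders of `g₀` at the affine places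
  have hdiv : ∀ Q : Place kB FtM, 0 ≤ Q.ord (jFullC kB M) →
      (m : ℤ) ∣ 12 * Q.ord (g₀ : FtM) - (a.val : ℕ) * Q.ord (OrdTau.tau (M := M) B hB) := by
    intro Q hQ
    by_cases hQc : ∃ e, Q = z₁ (chartDataModular B hB hqM) e
    · obtain ⟨e, rfl⟩ := hQc
      rw [OrdTau.ord_tau_eq B hB hqM h2 h3 e]
      have h1 := hslope e
      have h3' : (m : ℤ) ∣ (z₁ (chartDataModular B hB hqM) e).ord (g₀ : FtM) - (a.val : ℤ) := by
        rw [← ZMod.intCast_eq_intCast_iff_dvd_sub, h1]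
        simp
      have e2 : 12 * (z₁ (chartDataModular B hB hqM) e).ord (g₀ : FtM) - (a.val : ℕ) * 12 =
          12 * ((z₁ (chartDataModular B hB hqM) e).ord (g₀ : FtM) - (a.val : ℤ)) := by ring
      rw [e2]
      exact Dvd.dvd.mul_left h3' _
    · have hne : ∀ e, Q ≠ z₁ (chartDataModular B hB hqM) e := fun e he => hQc ⟨e, he⟩
      rw [OrdTau.ord_tau_eq_zero B hB hqM h2 h3 Q hQ hne, mul_zero, sub_zero]
      have hnb : ¬ (setup Dt).IsBranch ⟨0, Q⟩ := fun hb =>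
        hQc ((OrdTau.isBranch_zero_iff Dt Q).mp hb)
      have hord := Filt.ord_residue_eq hR (v := 0) (g₀ := (g₀ : FtM))
        ⟨hg0, c, hc, hmem, hres⟩ hnb
      rw [hord]
      exact Dvd.dvd.mul_left (Dvd.intro _ rfl) _
  have key := dvd_ord_normC_sub (hB := hB) (hqM := hqM) h2 h3 (ℓ : ℕ) hqMℓ hℓM hℓ hm12 hg0
    a.val hdiv e₀
  show ((((z₁ (chartDataModular B hB hqM) e₀).ord G : ℤ)) : ZMod m) = _
  have h4 := (ZMod.intCast_eq_intCast_iff_dvd_sub _ _ m).mpr key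
  rw [← h4]
  push_cast
  rw [ZMod.natCast_zmod_val]

end Modular

end Fermat.Agent.FF4.Hecke2.HeckeSlope
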